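import Fermat.Agent.Carayol.Field.Root

/-!
# The action of automorphisms of the constants on the coefficients at infinity
-/

set_option autoImplicit false
set_option linter.unusedSectionVars false
set_option linter.style.haveILetI false
set_option synthInstance.maxHeartbeats 200000
set_option maxHeartbeats 800000

noncomputable section

namespace FA.Carayol

open UpperHalfPlane hiding I
open CongruenceSubgroup HahnSeries ModularCurve FA.Level FA.ModField FA.Mazur.Wp
open scoped MatrixGroups Manifold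

/-- The row vector times `diag (1, s)`. -/
def vscale (s : ℤ) (v : ℤ × ℤ) : ℤ × ℤ := (v.1, s * v.2)

theorem isVec_vscale {N : ℕ} {s s' : ℤ} (hs : (N : ℤ) ∣ s' * s - 1) {v : ℤ × ℤ} (hv : IsVec N v) :
    IsVec N (vscale s v) := fun hd => hv ⟨hd.1, by
  have : v.2 = s' * (s * v.2) - (s' * s - 1) * v.2 := by ring
  rw [this]
  exact dvd_sub (hd.2.mul_left _) (hs.mul_right _)⟩

variable {N : ℕ} [NeZero N]

theorem eta_congr {a b : ℤ} (h : (N : ℤ) ∣ a - b) : eta N a = eta N b := by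
  obtain ⟨k, hk⟩ := h
  rw [show a = b + N * k by omega, eta_add_mul]

theorem xVal_congr_dvd {v w : ℤ × ℤ} (h1 : (N : ℤ) ∣ v.1 - w.1) (h2 : (N : ℤ) ∣ v.2 - w.2) (τ : ℍ) :
    xVal N v.1 v.2 τ = xVal N w.1 w.2 τ := by
  obtain ⟨k, hk⟩ := h1
  obtain ⟨l, hl⟩ := h2
  rw [show v.1 = w.1 + N * k by omega, show v.2 = w.2 + N * l by omega, xVal_congr]

variable {K : Subfield ℂ} {h : ℕ} (hN : N = 2 * h) (hh : 2 ≤ h) (hζ : ∀ b : ℤ, eta N b ∈ K)

/-- An automorphism of the constants acting by `s` on the roots of unity of order `N`. -/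
def ScalesRoots (σ : K ≃+* K) (s : ℤ) : Prop :=
  ∀ b : ℤ, σ ⟨eta N b, hζ b⟩ = ⟨eta N (s * b), hζ (s * b)⟩

theorem scalesRoots_symm {σ : K ≃+* K} {s s' : ℤ} (hσ : ScalesRoots hζ σ s)
    (hs : (N : ℤ) ∣ s' * s - 1) : ScalesRoots hζ σ.symm s' := fun b => by
  rw [RingEquiv.symm_apply_eq, hσ]
  refine Subtype.ext (eta_congr ?_)
  rw [show b - s * (s' * b) = -((s' * s - 1) * b) by ring]
  exact dvd_neg.2 (hs.mul_right _)

theorem coeffMap_scale_xK {σ : K ≃+* K} {s : ℤ} (hσ : ScalesRoots hζ σ s) (v : ℤ × ℤ) :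
    coeffMap (σ : K →+* K) (xK K hζ v) = xK K hζ (vscale s v) := by
  rw [xK, coeffMap_ofPowerSeries, map_xSer, RingHom.coe_coe, hσ]
  rfl

include hN hh in
theorem exists_conj {σ : K ≃+* K} {s s' : ℤ} (hσ : ScalesRoots hζ σ s)
    (hs : (N : ℤ) ∣ s' * s - 1) (x : flN N K) :
    ∃ y : flN N K, ser y = coeffMap (σ : K →+* K) (ser x) := by
  have hx : x ∈ (⊤ : Subfield (flN N K)) := Subfield.mem_top x
  rw [← eq_top_xv hN (hζ := hζ) hh] at hx
  have hrat : ∀ (v : ℤ × ℤ) (hv : IsVec N v), ∃ y : flN N K,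
      ser y = coeffMap (σ : K →+* K) (ser (toFl (ratHol K hζ hv (isVec_tA hN) (isVec_tB hN)
        (apart_ab hN)))) := fun v hv => by
    have hse : ¬ (2 : ℤ) ∣ s := fun hd => by
      obtain ⟨t, ht⟩ := hd
      obtain ⟨k, hk⟩ := (Int.natCast_dvd_natCast.2 ⟨h, hN⟩ : ((2 : ℕ) : ℤ) ∣ (N : ℤ)).trans hs
      rw [ht] at hk
      push_cast at hk
      have h1 : (2 : ℤ) * (s' * t - k) = 1 := by linear_combination hk
      omega
    have hb : ∀ (u : ℤ × ℤ) (τ : ℍ), u = tA h ∨ u = tB h →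
        xVal N (vscale s u).1 (vscale s u).2 τ = xVal N u.1 u.2 τ := by
      rintro u τ (rfl | rfl)
      · simp [vscale, tA]
      · simp only [vscale, tB]
        have := xVal_two hN 0 s 0 1 (by simp) (by omega) τ
        simpa [mul_comm] using this
    refine ⟨toFl (ratHol K hζ (isVec_vscale hs hv) (isVec_tA hN) (isVec_tB hN) (apart_ab hN)), ?_⟩
    have e : ∀ u : ℤ × ℤ, u = tA h ∨ u = tB h → IsVec N u →
        xK K hζ (vscale s u) = xK K hζ u := fun u hu hu' => by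
      refine HasKExp.unique (f := xVal N u.1 u.2) (N := N) ?_ ?_
      · unfold HasKExp
        rw [FA.Carayol.coeffMap_xK]
        refine (hasExp_xVal _ _ (isVec_vscale hs hu')).congr (funext fun τ => hb u τ hu)
      · unfold HasKExp
        rw [FA.Carayol.coeffMap_xK]
        exact hasExp_xVal _ _ hu'
    rw [show ∀ f : rN N K, ser (toFl f) = rSer f from ser_rMer,
      show ∀ f : rN N K, ser (toFl f) = rSer f from ser_rMer, rSer_ratHol, rSer_ratHol, map_mul,
      map_sub, map_inv₀, map_sub, coeffMap_scale_xK hζ hσ, coeffMap_scale_xK hζ hσ, coeffMap_scale_xK hζ hσ,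
      e _ (Or.inl rfl) (isVec_tA hN), e _ (Or.inr rfl) (isVec_tB hN)]
  induction hx using Subfield.closure_induction with
  | mem y hy =>
    rcases hy with (⟨c, rfl⟩ | rfl) | ⟨v, hv, rfl⟩
    · refine ⟨toFl (rC (σ c)), ?_⟩
      show ser (toFl (rC (σ c))) = coeffMap (σ : K →+* K) (ser (toFl (rC c)))
      rw [show ∀ f : rN N K, ser (toFl f) = rSer f from ser_rMer,
        show ∀ f : rN N K, ser (toFl f) = rSer f from ser_rMer, rSer_rC, rSer_rC,
        HahnSeries.C_apply, HahnSeries.C_apply, coeffMap_single]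
      rfl
    · exact hrat _ (isVec_tC hN)
    · exact hrat v hv
  | one => exact ⟨1, by simp⟩
  | add x y _ _ hx hy =>
    obtain ⟨a, ha⟩ := hx
    obtain ⟨b, hb⟩ := hy
    exact ⟨a + b, by simp [ha, hb]⟩
  | neg x _ hx =>
    obtain ⟨a, ha⟩ := hx
    exact ⟨-a, by simp [ha]⟩
  | inv x _ hx =>
    obtain ⟨a, ha⟩ := hx
    exact ⟨a⁻¹, by simp [ha]⟩
  | mul x y _ _ hx hy =>
    obtain ⟨a, ha⟩ := hx
    obtain ⟨b, hb⟩ := hy
    exact ⟨a * b, by simp [ha, hb]⟩

/-- The data of a coefficient automorphism. -/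
structure CoeffAut (N : ℕ) [NeZero N] (K : Subfield ℂ) (hζ : ∀ b : ℤ, eta N b ∈ K) where
  /-- on the constants -/
  σ : K ≃+* K
  /-- the exponent -/
  s : ℤ
  /-- its inverse modulo `N` -/
  s' : ℤ
  scales : ScalesRoots hζ σ s
  inv : (N : ℤ) ∣ s' * s - 1

variable (S : CoeffAut N K hζ)

/-- The automorphism of the coefficients as a map of the field. -/
def conjFl (x : flN N K) : flN N K := (exists_conj hN hh hζ S.scales S.inv x).choose

theorem ser_conjFl (x : flN N K) :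
    ser (conjFl hN hh hζ S x) = coeffMap (S.σ : K →+* K) (ser x) :=
  (exists_conj hN hh hζ S.scales S.inv x).choose_spec

theorem exists_conjFl_eq (y : flN N K) : ∃ x, conjFl hN hh hζ S x = y := by
  have hs : (N : ℤ) ∣ S.s * S.s' - 1 := by rw [mul_comm]; exact S.inv
  obtain ⟨x, hx⟩ := exists_conj hN hh hζ (scalesRoots_symm hζ S.scales S.inv) hs y
  refine ⟨x, ser_injective ?_⟩
  rw [ser_conjFl, hx, coeffMap_coeffMap,
    coeffMap_congr (g := RingHom.id K) (RingHom.ext fun a => S.σ.apply_symm_apply a), coeffMap_id]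

/-- The automorphism of the field. -/
def conjAut : flN N K ≃+* flN N K :=
  RingEquiv.ofBijective
    ({ toFun := conjFl hN hh hζ S
       map_one' := ser_injective (by simp [ser_conjFl])
       map_zero' := ser_injective (by simp [ser_conjFl])
       map_add' := fun x y => ser_injective (by simp [ser_conjFl])
       map_mul' := fun x y => ser_injective (by simp [ser_conjFl]) } : flN N K →+* flN N K)
    ⟨RingHom.injective _, exists_conjFl_eq hN hh hζ S⟩

theorem ser_conjAut (x : flN N K) :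
    ser (conjAut hN hh hζ S x) = coeffMap (S.σ : K →+* K) (ser x) := ser_conjFl hN hh hζ S x

theorem conjAut_rC (c : K) : conjAut hN hh hζ S (toFl (rC c)) = toFl (rC (S.σ c)) :=
  ser_injective (by
    rw [ser_conjAut, show ∀ f : rN N K, ser (toFl f) = rSer f from ser_rMer,
      show ∀ f : rN N K, ser (toFl f) = rSer f from ser_rMer, rSer_rC, rSer_rC, HahnSeries.C_apply,
      coeffMap_single]
    rfl)

include hN in
theorem odd_scale : ¬ (2 : ℤ) ∣ S.s := fun hd => by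
  obtain ⟨t, ht⟩ := hd
  obtain ⟨k, hk⟩ := (Int.natCast_dvd_natCast.2 ⟨h, hN⟩ : ((2 : ℕ) : ℤ) ∣ (N : ℤ)).trans S.inv
  rw [ht] at hk
  push_cast at hk
  have h1 : (2 : ℤ) * (S.s' * t - k) = 1 := by linear_combination hk
  omega

theorem xK_congr {v w : ℤ × ℤ} (hv : IsVec N v) (hw : IsVec N w)
    (h : ∀ τ, xVal N v.1 v.2 τ = xVal N w.1 w.2 τ) : xK K hζ v = xK K hζ w := by
  refine HasKExp.unique (f := xVal N v.1 v.2) (N := N) ?_ ?_
  · unfold HasKExp
    rw [FA.Carayol.coeffMap_xK]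
    exact hasExp_xVal _ _ hv
  · unfold HasKExp
    rw [FA.Carayol.coeffMap_xK]
    exact (hasExp_xVal _ _ hw).congr (funext fun τ => (h τ).symm)

theorem conjAut_rat {v : ℤ × ℤ} (hv : IsVec N v) :
    conjAut hN hh hζ S (toFl (xv hN hζ v hv)) = toFl (xv hN hζ _ (isVec_vscale S.inv hv)) := by
  have hodd := odd_scale hN hζ S
  have hA : ∀ τ, xVal N (vscale S.s (tA h)).1 (vscale S.s (tA h)).2 τ =
      xVal N (tA h).1 (tA h).2 τ := fun τ => by simp [vscale, tA]
  have hB : ∀ τ, xVal N (vscale S.s (tB h)).1 (vscale S.s (tB h)).2 τ =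
      xVal N (tB h).1 (tB h).2 τ := fun τ => by
    simp only [vscale, tB]
    have := xVal_two hN 0 S.s 0 1 (by simp) (by omega) τ
    simpa [mul_comm] using this
  refine ser_injective ?_
  rw [ser_conjAut, show ∀ f : rN N K, ser (toFl f) = rSer f from ser_rMer,
    show ∀ f : rN N K, ser (toFl f) = rSer f from ser_rMer, xv, xv, rSer_ratHol, rSer_ratHol,
    map_mul, map_sub, map_inv₀, map_sub, coeffMap_scale_xK hζ S.scales, coeffMap_scale_xK hζ S.scales,
    coeffMap_scale_xK hζ S.scales,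
    xK_congr hζ (isVec_vscale S.inv (isVec_tA hN)) (isVec_tA hN) hA,
    xK_congr hζ (isVec_vscale S.inv (isVec_tB hN)) (isVec_tB hN) hB]

include hN hζ in
theorem rAct_xv {γ : SL(2, ℤ)} (hγ : γ ∈ Gamma 2) {v : ℤ × ℤ} (hv : IsVec N v) :
    rAct γ (xv hN hζ v hv) = xv hN hζ (vmul v γ) (hv.vmul γ) :=
  Subtype.ext (Subtype.ext (funext fun τ => by
    show ratFun N v (tA h) (tB h) (γ • τ) = ratFun N (vmul v γ) (tA h) (tB h) τ
    obtain ⟨e1, e2⟩ := xVal_vmul_two hN hζ hγ τ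
    rw [ratFun_smul]
    simp only [ratFun, e1, e2]))

theorem xv_congr {v w : ℤ × ℤ} (hv : IsVec N v) (hw : IsVec N w)
    (h1 : (N : ℤ) ∣ v.1 - w.1) (h2 : (N : ℤ) ∣ v.2 - w.2) :
    xv hN hζ v hv = xv hN hζ w hw :=
  Subtype.ext (Subtype.ext (funext fun τ => by
    show ratFun N v (tA h) (tB h) τ = ratFun N w (tA h) (tB h) τ
    simp only [ratFun, xVal_congr_dvd h1 h2]))

theorem conjAut_lam : conjAut hN hh hζ S (toFl (lam hN K hζ)) = toFl (lam hN K hζ) := by
  have hodd := odd_scale hN hζ S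
  refine (conjAut_rat hN hh hζ S (isVec_tC hN)).trans (congrArg toFl ?_)
  refine Subtype.ext (Subtype.ext (funext fun τ => ?_))
  show ratFun N (vscale S.s (tC h)) (tA h) (tB h) τ = ratFun N (tC h) (tA h) (tB h) τ
  have := xVal_two hN 1 S.s 1 1 (by simp) (by omega) τ
  simp only [ratFun, vscale, tC]
  simp only [mul_one] at this
  rw [mul_comm S.s, this]

/-- **Compatibility with translations.** -/
theorem conjAut_flAct {γ γ' : SL(2, ℤ)} (hγ : γ ∈ Gamma 2) (hγ' : γ' ∈ Gamma 2)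
    (h0 : (N : ℤ) ∣ γ' 0 0 - γ 0 0) (h1 : (N : ℤ) ∣ γ' 0 1 - S.s * γ 0 1)
    (h2 : (N : ℤ) ∣ S.s * γ' 1 0 - γ 1 0) (h3 : (N : ℤ) ∣ γ' 1 1 - γ 1 1) (x : flN N K) :
    conjAut hN hh hζ S (flAct γ x) = flAct γ' (conjAut hN hh hζ S x) := by
  have hx : x ∈ (⊤ : Subfield (flN N K)) := Subfield.mem_top x
  rw [← eq_top_xv hN (hζ := hζ) hh] at hx
  induction hx using Subfield.closure_induction with
  | mem y hy =>
    rcases hy with (⟨c, rfl⟩ | rfl) | ⟨v, hv, rfl⟩
    · show conjAut hN hh hζ S (flAct γ (toFl (rC c))) = flAct γ' (conjAut hN hh hζ S (toFl (rC c)))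
      rw [flAct_toFl, rAct_rC, conjAut_rC, flAct_toFl, rAct_rC]
    · rw [flAct_toFl, rAct_lam_gamma_two hN K hζ hγ, conjAut_lam, flAct_toFl,
        rAct_lam_gamma_two hN K hζ hγ']
    · rw [flAct_toFl, rAct_xv hN hζ hγ, conjAut_rat, conjAut_rat, flAct_toFl, rAct_xv hN hζ hγ']
      refine congrArg toFl (xv_congr hN hζ _ _ ?_ ?_)
      · simp only [vmul, vscale]
        rw [show v.1 * γ 0 0 + v.2 * γ 1 0 - (v.1 * γ' 0 0 + S.s * v.2 * γ' 1 0) =
          -(v.1 * (γ' 0 0 - γ 0 0) + v.2 * (S.s * γ' 1 0 - γ 1 0)) by ring]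
        exact dvd_neg.2 (dvd_add (h0.mul_left _) (h2.mul_left _))
      · simp only [vmul, vscale]
        rw [show S.s * (v.1 * γ 0 1 + v.2 * γ 1 1) - (v.1 * γ' 0 1 + S.s * v.2 * γ' 1 1) =
          -(v.1 * (γ' 0 1 - S.s * γ 0 1) + S.s * v.2 * (γ' 1 1 - γ 1 1)) by ring]
        exact dvd_neg.2 (dvd_add (h1.mul_left _) (h3.mul_left _))
  | one => simp
  | add x y _ _ hx hy => simp [hx, hy]
  | neg x _ hx => simp [hx]
  | inv x _ hx => simp [hx]
  | mul x y _ _ hx hy => simp [hx, hy]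

end FA.Carayol
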