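import Fermat.Agent.Carayol.Field.Descent
import Fermat.Agent.JTorsion.Roots

/-!
# Membership in the field of level `N`; roots
-/

set_option autoImplicit false
set_option linter.unusedSectionVars false
set_option linter.style.haveILetI false

noncomputable section

namespace FA.Carayol

open UpperHalfPlane hiding I
open CongruenceSubgroup HahnSeries ModularCurve FA.Level FA.ModField FA.Mazur.Wp
open scoped MatrixGroups Manifold

variable {N : ℕ} [NeZero N]

/-- An expansion in a root of the parameter of a periodic function descends. -/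
theorem exp_of_multiple {k : ℕ} [NeZero k] {f : ℍ → ℂ} {S : LaurentSeries ℂ}
    (h : HasExp (qp (N * k)) f S) (hper : ∀ z, f (ModularGroup.T ^ (N : ℤ) • z) = f z) :
    ∃ S', HasExp (qp N) f S' := by
  haveI : NeZero (N * k) := ⟨Nat.mul_ne_zero (NeZero.ne N) (NeZero.ne k)⟩
  set m : ℕ := (-S.order).toNat
  have hqp : ∀ z, qp (N * k) z ^ k = qp N z := fun z => by
    rw [qp_eq, qp_eq, ← Complex.exp_nat_mul]
    congr 1
    have hk : (k : ℂ) ≠ 0 := Nat.cast_ne_zero.2 (NeZero.ne k)
    have hN : (N : ℂ) ≠ 0 := Nat.cast_ne_zero.2 (NeZero.ne N)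
    push_cast
    field_simp
  set g : ℍ → ℂ := fun z => f z * qp N z ^ m
  have hge : g = fun z => f z * qp (N * k) z ^ ((k * m : ℕ) : ℤ) := funext fun z => by
    simp only [g, zpow_natCast, pow_mul, hqp]
  have hk1 : m ≤ k * m := Nat.le_mul_of_pos_left _ (Nat.pos_of_ne_zero (NeZero.ne k))
  have hord : OrdGE 0 (S * single ((k * m : ℕ) : ℤ) (1 : ℂ)) := by
    intro i hi
    rw [show i = (i - (k * m : ℕ)) + (k * m : ℕ) by ring, coeff_mul_single_add, mul_one]
    exact coeff_eq_zero_of_lt_order (by omega)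
  have h1 := exp_shift h ((k * m : ℕ) : ℤ)
  rw [← hge] at h1
  obtain ⟨P, hP⟩ := exists_exp_of_bounded (N := N) (f := g) (mdiff_of_exp h1)
    (fun z => by simp only [g]; rw [hper, qp_T_pow])
    ((FA.JTorsion.tendsto_coeff_zero h1 hord).isBigO_one ℝ)
  refine ⟨_, (exp_shift hP (-(m : ℤ))).congr (funext fun z => ?_)⟩
  simp only [g, zpow_neg, zpow_natCast]
  rw [mul_assoc, mul_inv_cancel₀ (pow_ne_zero _ (qp_ne_zero N z)), mul_one]

/-- A holomorphic periodic function with a power having an expansion has one. -/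
theorem exp_of_pow {f : ℍ → ℂ} (hd : MDiff f)
    (hper : ∀ z, f (ModularGroup.T ^ (N : ℤ) • z) = f z) {n : ℕ} (hn : n ≠ 0)
    {S : LaurentSeries ℂ} (h : HasExp (qp N) (fun z => f z ^ n) S) :
    ∃ S', HasExp (qp N) f S' := by
  set m : ℕ := (-S.order).toNat
  set g : ℍ → ℂ := fun z => f z * qp N z ^ m
  have hgn : (fun z => g z ^ n) = fun z => f z ^ n * qp N z ^ ((m * n : ℕ) : ℤ) := funext fun z => by
    simp only [g, zpow_natCast, mul_pow, pow_mul]
  have hord : OrdGE 0 (S * single ((m * n : ℕ) : ℤ) (1 : ℂ)) := by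
    intro i hi
    rw [show i = (i - (m * n : ℕ)) + (m * n : ℕ) by ring, coeff_mul_single_add, mul_one]
    have : m ≤ m * n := Nat.le_mul_of_pos_right _ (Nat.pos_of_ne_zero hn)
    exact coeff_eq_zero_of_lt_order (by omega)
  have hb : IsBoundedAtImInfty fun z => g z ^ n := by
    rw [hgn]
    exact (FA.JTorsion.tendsto_coeff_zero (exp_shift h _) hord).isBigO_one ℝ
  have hb' : IsBoundedAtImInfty g := by
    rw [UpperHalfPlane.isBoundedAtImInfty_iff] at hb ⊢
    obtain ⟨B, A, hB⟩ := hb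
    refine ⟨max B 1, A, fun z hz => ?_⟩
    rcases le_or_gt ‖g z‖ 1 with h' | h'
    · exact h'.trans (le_max_right _ _)
    · refine le_trans ?_ ((hB z hz).trans (le_max_left _ _))
      rw [norm_pow]
      exact le_self_pow₀ h'.le hn
  obtain ⟨P, hP⟩ := exists_exp_of_bounded (N := N) (f := g) (hd.mul (mdiff_qp.pow m))
    (fun z => by simp only [g]; rw [hper, qp_T_pow]) hb'
  refine ⟨_, (exp_shift hP (-(m : ℤ))).congr (funext fun z => ?_)⟩
  simp only [g, zpow_neg, zpow_natCast]
  rw [mul_assoc, mul_inv_cancel₀ (pow_ne_zero _ (qp_ne_zero N z)), mul_one]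

/-- Membership over `ℂ`. -/
theorem mem_rN_top {f : holSub} (hinv : ∀ γ ∈ Gamma N, ∀ z, (f : ℍ → ℂ) (γ • z) = (f : ℍ → ℂ) z)
    (hexp : ∀ g : SL(2, ℤ), ∃ S : LaurentSeries ℂ, HasExp (qp N) (fun z => (f : ℍ → ℂ) (g • z)) S) :
    f ∈ rN N (⊤ : Subfield ℂ) := by
  refine mem_rN.2 ⟨hinv, fun g => ?_⟩
  obtain ⟨S, hS⟩ := hexp g
  refine ⟨⟨fun i => ⟨S.coeff i, Subfield.mem_top _⟩, S.isPWO_support.mono fun i hi h0 => hi
    (Subtype.ext h0)⟩, ?_⟩
  unfold HasKExp
  convert hS using 1
  exact HahnSeries.ext (funext fun i => rfl)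

theorem rN_periodic {K : Subfield ℂ} (f : rN N K) (g : SL(2, ℤ)) (z : ℍ) :
    ((f : holSub) : ℍ → ℂ) (g • ModularGroup.T ^ (N : ℤ) • z) =
      ((f : holSub) : ℍ → ℂ) (g • z) := by
  have hT : ModularGroup.T ^ (N : ℤ) ∈ Gamma N := by
    rw [Gamma_mem, ModularGroup.coe_T_zpow]; simp
  rw [← rN_invariant f (smul_Gamma_conj g hT) (g • z)]
  simp only [← mul_smul, inv_mul_cancel_right]

theorem ser_mono {K K' : Subfield ℂ} (hKK : K ≤ K') (x : flN N K) :
    ser (⟨x.1, flN_mono hKK x.2⟩ : flN N K') = coeffMap (Subfield.inclusion hKK) (ser x) := by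
  obtain ⟨a, b, hb, h⟩ := exists_fraction x
  have hb' : (⟨b.1, rN_mono hKK b.2⟩ : rN N K') ≠ 0 := fun h0 =>
    hb (Subtype.ext (congrArg (fun y : rN N K' => (y : holSub)) h0))
  show serFun _ = coeffMap (Subfield.inclusion hKK) (serFun x)
  rw [serFun_eq hb h, serFun_eq (x := (⟨x.1, flN_mono hKK x.2⟩ : flN N K'))
    (a := ⟨a.1, rN_mono hKK a.2⟩) hb' h, map_div₀, rSer_mono hKK, rSer_mono hKK]

/-- A holomorphic element of the field is in the ring. -/
theorem mem_rN_of_flN {K : Subfield ℂ} (f : rN N (⊤ : Subfield ℂ))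
    (hf : rMer N (⊤ : Subfield ℂ) f ∈ flN N K) : (f : holSub) ∈ rN N K := by
  refine mem_rN.2 ⟨(mem_rN.1 f.2).1, fun g => ?_⟩
  set x : flN N K := flAct g ⟨_, hf⟩
  refine ⟨ser x, ?_⟩
  have he : (⟨x.1, flN_mono le_top x.2⟩ : flN N (⊤ : Subfield ℂ)) = toFl (rAct g f) :=
    Subtype.ext (merSL_rMer g f)
  have h1 := congrArg ser he
  rw [ser_mono le_top, show ser (toFl (rAct g f)) = rSer (rAct g f) from ser_rMer _] at h1
  have h2 := rSer_spec (rAct g f)
  rw [← h1] at h2
  unfold HasKExp at h2 ⊢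
  rw [coeffMap_coeffMap] at h2
  exact h2

/-- A power series with constant term one and `n`-th power over `K` is over `K`. -/
theorem coeff_mem_of_pow {K : Subfield ℂ} {n : ℕ} (hn : n ≠ 0) {T : PowerSeries ℂ}
    (h0 : PowerSeries.coeff 0 T = 1) (hT : ∀ k, PowerSeries.coeff k (T ^ n) ∈ K) :
    ∀ k, PowerSeries.coeff k T ∈ K := by
  intro k
  induction k using Nat.strong_induction_on with
  | _ k ih =>
  rcases Nat.eq_zero_or_pos k with rfl | hk
  · rw [h0]; exact one_mem K
  classical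
  set U : PowerSeries ℂ := PowerSeries.mk fun i => if i < k then PowerSeries.coeff i T else 0
  have hU : ∀ i, PowerSeries.coeff i U ∈ K := fun i => by
    simp only [U, PowerSeries.coeff_mk]
    split_ifs with hi
    exacts [ih i hi, zero_mem K]
  have hUn : ∀ m i, PowerSeries.coeff i (U ^ m) ∈ K := by
    intro m
    induction m with
    | zero => intro i; rw [pow_zero, PowerSeries.coeff_one]; split_ifs <;> simp [one_mem, zero_mem]
    | succ m ihm =>
      intro i
      rw [pow_succ, PowerSeries.coeff_mul]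
      exact sum_mem fun x _ => mul_mem (ihm x.1) (hU x.2)
  have hU0 : PowerSeries.coeff 0 U = 1 := by simp [U, hk, h0]
  have hlow : ∀ m i, i < k → PowerSeries.coeff i (T ^ m) = PowerSeries.coeff i (U ^ m) := by
    intro m
    induction m with
    | zero => intro i _; rfl
    | succ m ihm =>
      intro i hi
      rw [pow_succ, pow_succ, PowerSeries.coeff_mul, PowerSeries.coeff_mul]
      refine Finset.sum_congr rfl fun x hx => ?_
      have := Finset.HasAntidiagonal.mem_antidiagonal.1 hx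
      rw [ihm x.1 (by omega), show PowerSeries.coeff x.2 T = PowerSeries.coeff x.2 U by
        simp only [U, PowerSeries.coeff_mk]; rw [if_pos (by omega)]]
  have hk' : ∀ m : ℕ, PowerSeries.coeff k (T ^ m) =
      PowerSeries.coeff k (U ^ m) + m * PowerSeries.coeff k T := by
    intro m
    induction m with
    | zero => simp
    | succ m ihm =>
      rw [pow_succ, pow_succ, PowerSeries.coeff_mul, PowerSeries.coeff_mul]
      have hsplit : ∀ S S' : PowerSeries ℂ, (∑ x ∈ Finset.HasAntidiagonal.antidiagonal k,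
          PowerSeries.coeff x.1 S * PowerSeries.coeff x.2 S') =
          PowerSeries.coeff 0 S * PowerSeries.coeff k S' +
          PowerSeries.coeff k S * PowerSeries.coeff 0 S' +
          ∑ x ∈ ((Finset.HasAntidiagonal.antidiagonal k).erase (0, k)).erase (k, 0),
            PowerSeries.coeff x.1 S * PowerSeries.coeff x.2 S' := fun S S' => by
        rw [← Finset.add_sum_erase _ _ (Finset.HasAntidiagonal.mem_antidiagonal.2 (zero_add k) : ((0 : ℕ), k) ∈ Finset.HasAntidiagonal.antidiagonal k),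
          ← Finset.add_sum_erase _ _ (Finset.mem_erase.2 ⟨by simp [Prod.ext_iff, hk.ne'],
            Finset.HasAntidiagonal.mem_antidiagonal.2 (add_zero k)⟩ : (k, (0 : ℕ)) ∈ _)]
        ring
      rw [hsplit, hsplit, Finset.sum_congr rfl (g := fun x =>
        PowerSeries.coeff x.1 (U ^ m) * PowerSeries.coeff x.2 U) fun x hx => ?_, ihm, h0, hU0]
      · have e1 : PowerSeries.coeff k U = 0 := by simp [U]
        have e2 : PowerSeries.coeff 0 (T ^ m) = 1 := by
          rw [PowerSeries.coeff_zero_eq_constantCoeff, map_pow,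
            ← PowerSeries.coeff_zero_eq_constantCoeff, h0, one_pow]
        have e3 : PowerSeries.coeff 0 (U ^ m) = 1 := by
          rw [PowerSeries.coeff_zero_eq_constantCoeff, map_pow,
            ← PowerSeries.coeff_zero_eq_constantCoeff, hU0, one_pow]
        rw [e1, e2, e3]
        push_cast
        ring
      · simp only [Finset.mem_erase, Finset.HasAntidiagonal.mem_antidiagonal, ne_eq, Prod.ext_iff, not_and] at hx
        have h1 : x.1 < k := by
          rcases Nat.lt_or_ge x.1 k with h' | h'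
          · exact h'
          · exact absurd (by omega : x.2 = 0) (hx.1 (by omega))
        have h2 : x.2 < k := by
          rcases Nat.lt_or_ge x.2 k with h' | h'
          · exact h'
          · exact absurd (by omega : x.2 = k) (hx.2.1 (by omega))
        rw [hlow m x.1 h1, show PowerSeries.coeff x.2 T = PowerSeries.coeff x.2 U by
          simp only [U, PowerSeries.coeff_mk]; rw [if_pos h2]]
  have e := hk' n
  have hne : (n : ℂ) ≠ 0 := Nat.cast_ne_zero.2 hn
  rw [show PowerSeries.coeff k T =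
    (PowerSeries.coeff k (T ^ n) - PowerSeries.coeff k (U ^ n)) / n by rw [e]; field_simp; ring]
  exact div_mem (sub_mem (hT k) (hUn n k)) (natCast_mem K n)

variable {K : Subfield ℂ} {h : ℕ} (hN : N = 2 * h) (hh : 2 ≤ h) (hζ : ∀ b : ℤ, eta N b ∈ K)
include hN hh hζ

theorem exists_root_hol {P : rN N K} (hP : P ≠ 0) {R : holSub} {n : ℕ} (hn : n ≠ 0)
    (hR : ∀ z, (R : ℍ → ℂ) z ^ n = ((P : holSub) : ℍ → ℂ) z)
    (hinv : ∀ γ ∈ Gamma N, ∀ z, (R : ℍ → ℂ) (γ • z) = (R : ℍ → ℂ) z) :
    ∃ c : ℂ, c ≠ 0 ∧ c ^ n ∈ K ∧ ∃ x : flN N K, toMer R = merC c * (x : Mer) := by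
  have hexp : ∀ g : SL(2, ℤ),
      ∃ S : LaurentSeries ℂ, HasExp (qp N) (fun z => (R : ℍ → ℂ) (g • z)) S := fun g => by
    refine exp_of_pow (mdiff_comp_smul R.2 g) (fun z => ?_) hn
      (S := coeffMap K.subtype (rSer (rAct g P))) ?_
    · have hT : ModularGroup.T ^ (N : ℤ) ∈ Gamma N := by
        rw [Gamma_mem, ModularGroup.coe_T_zpow]; simp
      show (R : ℍ → ℂ) _ = (R : ℍ → ℂ) _
      rw [← hinv _ (smul_Gamma_conj g hT) (g • z)]
      simp only [← mul_smul, inv_mul_cancel_right]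
    · exact HasExp.congr (rSer_spec (rAct g P)) (funext fun z => (hR (g • z)).symm)
  set R' : rN N (⊤ : Subfield ℂ) := ⟨R, mem_rN_top hinv hexp⟩
  set S := coeffMap (⊤ : Subfield ℂ).subtype (rSer R')
  have hS : HasExp (qp N) (R : ℍ → ℂ) S := rSer_spec R'
  have hSn : S ^ n = coeffMap K.subtype (rSer P) :=
    (hS.pow (qp_ne_zero N) n).unique (covers_qp N)
      ((rSer_spec P).congr (funext fun z => (hR z).symm))
  have hS0 : S ≠ 0 := fun h0 => hP (rSer_injective (by
    rw [h0, zero_pow hn] at hSn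
    rw [map_zero]
    exact HahnSeries.ext (funext fun i => Subtype.ext (by
      have := congrArg (fun t : LaurentSeries ℂ => t.coeff i) hSn.symm
      simpa using this))))
  set c := S.leadingCoeff
  have hc : c ≠ 0 := HahnSeries.leadingCoeff_ne_zero.2 hS0
  have hcn : c ^ n ∈ K := by
    have := congrArg HahnSeries.leadingCoeff hSn
    have hlp : ∀ (m : ℕ), (S ^ m).leadingCoeff = c ^ m := by
      intro m
      induction m with
      | zero => simp
      | succ m ihm => rw [pow_succ, HahnSeries.leadingCoeff_mul, ihm, pow_succ]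
    rw [hlp] at this
    rw [this, HahnSeries.leadingCoeff_eq, coeffMap_coeff]
    exact Subtype.prop _
  set T : PowerSeries ℂ := PowerSeries.C c⁻¹ * S.powerSeriesPart
  have hT0 : PowerSeries.coeff 0 T = 1 := by
    rw [PowerSeries.coeff_C_mul, LaurentSeries.powerSeriesPart_coeff, Nat.cast_zero, add_zero,
      ← HahnSeries.leadingCoeff_eq]
    exact inv_mul_cancel₀ hc
  have hTn : ∀ k, PowerSeries.coeff k (T ^ n) ∈ K := by
    intro k
    have h2 : HahnSeries.ofPowerSeries ℤ ℂ (S.powerSeriesPart ^ n) =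
        HahnSeries.single (-((n : ℤ) * S.order)) 1 * coeffMap K.subtype (rSer P) := by
      rw [map_pow, LaurentSeries.ofPowerSeries_powerSeriesPart, mul_pow, HahnSeries.single_pow, hSn,
        one_pow, nsmul_eq_mul, mul_neg]
    have h3 := congrArg (fun t : LaurentSeries ℂ => t.coeff (k : ℤ)) h2
    simp only [HahnSeries.ofPowerSeries_apply_coeff, HahnSeries.coeff_single_mul, one_mul,
      coeffMap_coeff] at h3
    rw [show T ^ n = PowerSeries.C (c⁻¹ ^ n) * S.powerSeriesPart ^ n by rw [mul_pow, map_pow],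
      PowerSeries.coeff_C_mul, h3, inv_pow]
    exact mul_mem (inv_mem hcn) (Subtype.prop _)
  have hcoef : ∀ i, c⁻¹ * S.coeff i ∈ K := fun i => by
    rcases lt_or_ge i S.order with hi | hi
    · rw [coeff_eq_zero_of_lt_order hi, mul_zero]; exact zero_mem K
    · obtain ⟨k, hk⟩ := Int.eq_ofNat_of_zero_le (show 0 ≤ i - S.order by omega)
      have h3 := coeff_mem_of_pow hn hT0 hTn k
      rw [PowerSeries.coeff_C_mul, LaurentSeries.powerSeriesPart_coeff] at h3
      rwa [show i = S.order + k by omega]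
  set x : flN N (⊤ : Subfield ℂ) := toFl (rC (⟨c⁻¹, Subfield.mem_top _⟩) * R')
  have hx := mem_flN_of_ser hN hh hζ x fun i => by
    rw [show ser x = rSer _ from ser_rMer _, map_mul, rSer_rC, HahnSeries.C_apply,
      coeff_single_zero_mul]
    show c⁻¹ * (((rSer R').coeff i : (⊤ : Subfield ℂ)) : ℂ) ∈ K
    exact hcoef i
  refine ⟨c, hc, hcn, ⟨_, hx⟩, ?_⟩
  show toMer R = merC c * rMer N (⊤ : Subfield ℂ) (rC _ * R')
  rw [map_mul, rMer_rC, ← mul_assoc, ← map_mul]
  show _ = merC (c * c⁻¹) * _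
  rw [mul_inv_cancel₀ hc, map_one, one_mul]
  rfl

/-- **An invariant root of an element of the field is a constant times an element.** -/
theorem exists_const_of_root {y : Mer} {n : ℕ} (hn : n ≠ 0) (hy : y ^ n ∈ flN N K)
    (hinv : ∀ γ ∈ Gamma N, merSL γ y = y) :
    ∃ c : ℂ, c ≠ 0 ∧ c ^ n ∈ K ∧ ∃ x : flN N K, y = merC c * (x : Mer) := by
  rcases eq_or_ne y 0 with rfl | hy0
  · exact ⟨1, one_ne_zero, by rw [one_pow]; exact one_mem K, 0, by simp⟩
  obtain ⟨a, b, hb, he⟩ := hy
  set y' := y * rMer N K b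
  set P : rN N K := a * b ^ (n - 1)
  have hb0 : rMer N K b ≠ 0 := (map_ne_zero_iff _ rMer_injective).2 hb
  have hy' : y' ^ n = rMer N K P := by
    rw [mul_pow, map_mul, map_pow, ← he, mul_assoc, ← pow_succ',
      Nat.sub_add_cancel (Nat.pos_of_ne_zero hn)]
  have hP : P ≠ 0 := fun h0 => by
    rw [h0, map_zero, pow_eq_zero_iff hn] at hy'
    exact (mul_ne_zero hy0 hb0) hy'
  obtain ⟨r, s, hs, hrs⟩ := exists_toMer_div y'
  have hpoly : r ^ n = (P : holSub) * s ^ n := toMer_injective (by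
    rw [map_pow, ← hrs, mul_pow, hy', map_mul toMer, map_pow toMer]; rfl)
  have hPf : ((P : holSub) : ℍ → ℂ) ≠ 0 := fun h => hP (Subtype.ext (Subtype.ext h))
  have hsf : (s : ℍ → ℂ) ≠ 0 := fun h => hs (Subtype.ext h)
  obtain ⟨R, hR, hRP⟩ := FA.JTorsion.exists_root (P : holSub).2 hPf hn (fun τ => by
    have hfun : (r : ℍ → ℂ) ^ n = ((P : holSub) : ℍ → ℂ) * (s : ℍ → ℂ) ^ n :=
      congrArg Subtype.val hpoly
    have hmem : (τ : ℂ) ∈ {z : ℂ | 0 < z.im} := τ.im_pos
    have hAn : ∀ g : ℍ → ℂ, MDiff g → AnalyticAt ℂ (g ∘ ofComplex) (τ : ℂ) := fun g hg =>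
      (UpperHalfPlane.mdifferentiable_iff.1 hg).analyticAt (isOpen_upperHalfPlaneSet.mem_nhds hmem)
    have hfin : ∀ g : ℍ → ℂ, MDiff g → g ≠ 0 →
        analyticOrderAt (g ∘ ofComplex) (τ : ℂ) ≠ ⊤ := by
      intro g hg hg0 htop
      refine hg0 (UpperHalfPlane.eq_zero_of_frequently hg (τ := τ) ?_)
      have h := (UpperHalfPlane.continuous_coe.tendsto τ).eventually
        (analyticOrderAt_eq_top.1 htop)
      refine (h.filter_mono nhdsWithin_le_nhds).frequently.mono fun z hz => ?_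
      simpa [Function.comp_apply, ofComplex_apply] using hz
    have hcomp : ((r : ℍ → ℂ) ∘ ofComplex) ^ n =
        (((P : holSub) : ℍ → ℂ) ∘ ofComplex) * ((s : ℍ → ℂ) ∘ ofComplex) ^ n := by
      funext w
      exact congrFun hfun (ofComplex w)
    have hord := congrArg (fun g => analyticOrderNatAt g (τ : ℂ)) hcomp
    rw [analyticOrderNatAt_pow (hAn _ r.2), analyticOrderNatAt_mul
      (hAn _ (P : holSub).2) ((hAn _ s.2).pow n)
      (hfin _ (P : holSub).2 hPf) (by
        rw [analyticOrderAt_pow (hAn _ s.2)]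
        have := hfin _ s.2 hsf
        intro htop
        obtain ⟨k, hk⟩ := ENat.ne_top_iff_exists.1 this
        rw [← hk, nsmul_eq_mul, ← Nat.cast_mul] at htop
        exact ENat.natCast_ne_top _ htop),
      analyticOrderNatAt_pow (hAn _ s.2)] at hord
    simp only [smul_eq_mul] at hord
    exact (Nat.dvd_add_left (dvd_mul_right n _)).1 (hord ▸ dvd_mul_right n _))
  set Rm := toMer ⟨R, hR⟩
  have hRm : Rm ^ n = y' ^ n := by
    rw [hy', ← map_pow]
    exact congrArg toMer (Subtype.ext (funext hRP))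
  have hRm0 : Rm ≠ 0 := fun h0 => by
    rw [h0, zero_pow hn, eq_comm, pow_eq_zero_iff hn] at hRm
    exact (mul_ne_zero hy0 hb0) hRm
  obtain ⟨ζ, hζn, hζ'⟩ := exists_root_of_unity hn (x := y' / Rm)
    (by rw [div_pow, hRm, div_self (hRm ▸ pow_ne_zero n hRm0)])
  set R' : holSub := ⟨fun z => ζ * R z, mdifferentiable_const.mul hR⟩
  have hyR : y' = toMer R' := by
    rw [(div_eq_iff hRm0).1 hζ', merC_eq, ← map_mul]
    exact congrArg toMer (Subtype.ext rfl)
  obtain ⟨c, hc, hcn, x, hx⟩ := exists_root_hol hN hh hζ hP (R := R') hn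
    (fun z => by show (ζ * R z) ^ n = _; rw [mul_pow, hζn, one_mul]; exact hRP z)
    (fun γ hγ z => by
      have h2 : merSL γ y' = y' := by
        show merSL γ (y * _) = y * _
        rw [map_mul, hinv γ hγ, merSL_eq_self hγ (rMer_mem b)]
      rw [hyR, merSL_toMer] at h2
      exact congrFun (congrArg Subtype.val (toMer_injective h2)) z)
  refine ⟨c, hc, hcn, x / toFl b, ?_⟩
  show y = merC c * ((x : Mer) / rMer N K b)
  rw [← mul_div_assoc, ← hx, ← hyR, eq_div_iff hb0]

end FA.Carayol
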