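import Fermat.Agent.Carayol.Field.Legendre
import Mathlib.NumberTheory.ModularForms.NormTrace

/-!
# Invariants of `Γ(2)`: polynomials in `λ`, `1 / λ`, `1 / (1 - λ)`
-/

set_option autoImplicit false
set_option linter.unusedSectionVars false

noncomputable section

namespace FA.Carayol

open UpperHalfPlane hiding I
open CongruenceSubgroup HahnSeries ModularCurve FA.Level FA.ModField FA.Mazur.Wp Polynomial
open scoped MatrixGroups Topology ModularForm Manifold

/-- The three cusps of `Γ(2)`. -/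
def cuspRep : Fin 3 → SL(2, ℤ) := ![1, ModularGroup.S, ModularGroup.T * ModularGroup.S]

theorem exists_coset_two (g : SL(2, ℤ)) :
    ∃ (γ : SL(2, ℤ)) (r : Fin 3) (k : ℕ), γ ∈ Gamma 2 ∧ g = γ * cuspRep r * ModularGroup.T ^ k := by
  let π : SL(2, ℤ) →* Matrix.SpecialLinearGroup (Fin 2) (ZMod 2) :=
    Matrix.SpecialLinearGroup.map (Int.castRingHom (ZMod 2))
  have key : ∀ x : Matrix.SpecialLinearGroup (Fin 2) (ZMod 2), ∃ (r : Fin 3) (k : Fin 2),
      x = π (cuspRep r * ModularGroup.T ^ (k : ℕ)) := by decide +kernel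
  obtain ⟨r, k, hk⟩ := key (π g)
  refine ⟨g * (cuspRep r * ModularGroup.T ^ (k : ℕ))⁻¹, r, k, ?_, by group⟩
  rw [Gamma_mem']
  show π _ = 1
  rw [map_mul, map_inv, ← hk, mul_inv_cancel]

theorem ordGE_tendsto {N : ℕ} [NeZero N] {K : Subfield ℂ} {f : ℍ → ℂ} {S : LaurentSeries K}
    (h : HasKExp N K f S) (hS : OrdGE 0 S) : IsBoundedAtImInfty f := by
  have h1 : OrdGE 0 (coeffMap K.subtype S) := fun i hi => by simp [hS i hi]
  exact (FA.JTorsion.tendsto_coeff_zero h h1).isBigO_one ℝ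

theorem rAct_one {N : ℕ} [NeZero N] {K : Subfield ℂ} (f : rN N K) : rAct 1 f = f :=
  Subtype.ext (Subtype.ext (funext fun z => by
    show ((f : holSub) : ℍ → ℂ) ((1 : SL(2, ℤ)) • z) = _
    rw [one_smul]))

theorem rAct_mul {N : ℕ} [NeZero N] {K : Subfield ℂ} (g g' : SL(2, ℤ)) (f : rN N K) :
    rAct (g * g') f = rAct g' (rAct g f) :=
  Subtype.ext (Subtype.ext (funext fun z => by
    show ((f : holSub) : ℍ → ℂ) ((g * g') • z) = ((f : holSub) : ℍ → ℂ) (g • g' • z)
    rw [mul_smul]))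

theorem rAct_rC {N : ℕ} [NeZero N] {K : Subfield ℂ} (g : SL(2, ℤ)) (c : K) :
    rAct g (rC (N := N) c) = rC c := rfl

variable {N h : ℕ} (hN : N = 2 * h) [NeZero N] (K : Subfield ℂ) (hζ : ∀ b : ℤ, eta N b ∈ K)
include hN hζ

/-- An invariant bounded at all cusps is constant. -/
theorem eq_rC_of_ordGE {f : rN N K} (hinv : ∀ γ ∈ Gamma 2, rAct γ f = f)
    (hb : ∀ r, OrdGE 0 (rSer (rAct (cuspRep r) f))) : ∃ c : K, f = rC c := by
  set F : ℍ → ℂ := ((f : holSub) : ℍ → ℂ)
  have hF : ∀ γ ∈ Gamma 2, ∀ z, F (γ • z) = F z := fun γ hγ z =>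
    congrFun (congrArg (fun x : rN N K => ((x : holSub) : ℍ → ℂ)) (hinv γ hγ)) z
  have hbd : ∀ δ : SL(2, ℤ), IsBoundedAtImInfty fun z => F (δ • z) := fun δ => by
    obtain ⟨γ, r, k, hγ, rfl⟩ := exists_coset_two δ
    have h1 : IsBoundedAtImInfty fun z => F (cuspRep r • z) :=
      ordGE_tendsto (rSer_spec (rAct (cuspRep r) f)) (hb r)
    rw [UpperHalfPlane.isBoundedAtImInfty_iff] at h1 ⊢
    obtain ⟨B, A, hA⟩ := h1
    refine ⟨B, A, fun z hz => ?_⟩
    rw [mul_smul, mul_smul, hF γ hγ]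
    refine hA _ ?_
    rwa [← zpow_natCast, ← UpperHalfPlane.coe_im, ModularGroup.coe_T_zpow_smul_eq, Complex.add_im,
      Complex.intCast_im, add_zero]
  let mf : ModularForm ((Gamma 2).map (Matrix.SpecialLinearGroup.mapGL ℝ)) 0 :=
    { toFun := F
      slash_action_eq' := by
        rintro _ ⟨γ, hγ, rfl⟩
        funext τ
        show (F ∣[(0 : ℤ)] γ) τ = F τ
        rw [ModularForm.SL_slash_apply, hF γ hγ τ]
        simp
      holo' := (f : holSub).2
      bdd_at_cusps' := fun hc => by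
        rw [Subgroup.IsArithmetic.isCusp_iff_isCusp_SL2Z] at hc
        refine (OnePoint.isBoundedAt_iff_forall_SL2Z hc).mpr fun δ _ => ?_
        have hfun : F ∣[(0 : ℤ)] δ = fun w => F (δ • w) := by
          funext w; simp [ModularForm.SL_slash_apply]
        rw [hfun]
        exact hbd δ }
  obtain ⟨c, hc⟩ := ModularForm.eq_const_of_weight_zero mf
  have hc' : F = fun _ => c := hc
  have hS := rSer_spec f
  rw [HasKExp, show ((f : holSub) : ℍ → ℂ) = fun _ => c from hc'] at hS
  have he := congrArg (fun s : LaurentSeries ℂ => s.coeff 0)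
    (HasExp.unique (covers_qp N) hS (hasExp_C c))
  simp only [coeffMap_coeff, HahnSeries.C_apply, coeff_single_same] at he
  refine ⟨(rSer f).coeff 0, Subtype.ext (Subtype.ext (funext fun z => ?_))⟩
  show F z = (((rSer f).coeff 0 : K) : ℂ)
  rw [hc']
  exact he.symm

/-- The series of an invariant at a cusp only involves multiples of `h`. -/
theorem dvd_of_coeff_ne {f : rN N K} (hinv : ∀ γ ∈ Gamma 2, rAct γ f = f) (r : SL(2, ℤ)) {i : ℤ}
    (hi : (rSer (rAct r f)).coeff i ≠ 0) : (h : ℤ) ∣ i := by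
  set g := rAct r f
  have hper : ∀ z, ((g : holSub) : ℍ → ℂ) (ModularGroup.T ^ 2 • z) = ((g : holSub) : ℍ → ℂ) z := by
    intro z
    have hγ : r * ModularGroup.T ^ 2 * r⁻¹ ∈ Gamma 2 :=
      (Gamma_normal 2).conj_mem _ (by
        rw [Gamma_mem, ← zpow_natCast, ModularGroup.coe_T_zpow]; simp; decide) r
    have h1 := congrFun (congrArg (fun x : rN N K => ((x : holSub) : ℍ → ℂ))
      (hinv _ hγ)) (r • z)
    show ((f : holSub) : ℍ → ℂ) (r • ModularGroup.T ^ 2 • z) = ((f : holSub) : ℍ → ℂ) (r • z)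
    refine Eq.trans ?_ h1
    show _ = ((f : holSub) : ℍ → ℂ) ((r * ModularGroup.T ^ 2 * r⁻¹) • r • z)
    rw [← mul_smul, ← mul_smul, inv_mul_cancel_right]
  have hS : HasExp (qp N) ((g : holSub) : ℍ → ℂ) (coeffMap K.subtype (rSer g)) := rSer_spec g
  have h' := hS.comp (U := qp N) (fun z => ModularGroup.T ^ 2 • z) 1 (zetaN N ^ 2) fun z => by
    rw [pow_one, Units.val_pow_eq_pow_val, sq (ModularGroup.T : SL(2, ℤ)), mul_smul, qp_T_smul,
      qp_T_smul]
    ring
  rw [qExpand_one_apply, show ((g : holSub) : ℍ → ℂ) ∘ (fun z => ModularGroup.T ^ 2 • z) =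
    ((g : holSub) : ℍ → ℂ) from funext hper] at h'
  have heq := congrArg (fun s : LaurentSeries ℂ => s.coeff i) (hS.unique (covers_qp N) h')
  simp only [twist_coeff, coeffMap_coeff] at heq
  have h0 : K.subtype ((rSer g).coeff i) ≠ 0 := (map_ne_zero K.subtype).2 hi
  have h2 : (((zetaN N ^ 2) ^ i : ℂˣ) : ℂ) = 1 :=
    mul_right_cancel₀ h0 (heq.symm.trans (one_mul _).symm)
  rw [Units.val_zpow_eq_zpow_val, Units.val_pow_eq_pow_val, ← zpow_natCast, ← zpow_mul,
    (zetaN_prim N).zpow_eq_one_iff_dvd] at h2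
  obtain ⟨m, hm⟩ := h2
  refine ⟨m, ?_⟩
  have hm' : (2 : ℤ) * i = 2 * ((h : ℤ) * m) := by
    have : (N : ℤ) = 2 * h := by exact_mod_cast hN
    rw [← mul_assoc, ← this, ← hm]
    norm_num
  omega

theorem rAct_S_one_sub : rAct ModularGroup.S (1 - lam hN K hζ) = lam hN K hζ :=
  Subtype.ext (Subtype.ext (funext fun z => by
    show 1 - lamFun N h (ModularGroup.S • z) = lamFun N h z
    rw [lamFun_S hN]; ring))

theorem rAct_S_lam : rAct ModularGroup.S (lam hN K hζ) = 1 - lam hN K hζ :=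
  Subtype.ext (Subtype.ext (funext fun z => lamFun_S hN z))

theorem rAct_TS_lam_mul :
    rAct (ModularGroup.T * ModularGroup.S) (lam hN K hζ) * (1 - lam hN K hζ) = 1 :=
  Subtype.ext (Subtype.ext (funext fun z => by
    show lamFun N h ((ModularGroup.T * ModularGroup.S) • z) * (1 - lamFun N h z) = 1
    rw [lamFun_TS hN]
    exact inv_mul_cancel₀ (sub_ne_zero.2 (lamFun_ne_one hN z).symm)))

theorem ordGE_rSer_lam : OrdGE 0 (rSer (lam hN K hζ)) := by
  have hh := half_pos hN
  have h1 : OrdGE 0 (rSer (1 - lam hN K hζ)) := fun i hi =>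
    (rSer_one_sub_lam hN K hζ).1 i (by omega)
  have : lam hN K hζ = 1 - (1 - lam hN K hζ) := by ring
  rw [this, map_sub, map_one]
  exact ordGE_one.sub h1

theorem order_TS : (rSer (rAct (ModularGroup.T * ModularGroup.S) (lam hN K hζ))).order = -(h : ℤ) ∧
    rSer (rAct (ModularGroup.T * ModularGroup.S) (lam hN K hζ)) ≠ 0 := by
  obtain ⟨h1, h2⟩ := rSer_one_sub_lam hN K hζ
  have hb0 : rSer (1 - lam hN K hζ) ≠ 0 := fun h0 => by
    rw [h0, HahnSeries.coeff_zero] at h2; norm_num at h2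
  have hb : (rSer (1 - lam hN K hζ)).order = h :=
    le_antisymm (HahnSeries.order_le_of_coeff_ne_zero (by rw [h2]; norm_num))
      (le_of_not_gt fun hlt => HahnSeries.coeff_order_eq_zero.not.2 hb0 (h1 _ hlt))
  have hm := congrArg rSer (rAct_TS_lam_mul hN K hζ)
  rw [map_mul, map_one] at hm
  have ha0 : rSer (rAct (ModularGroup.T * ModularGroup.S) (lam hN K hζ)) ≠ 0 := fun h0 => by
    rw [h0, zero_mul] at hm; exact zero_ne_one hm
  have := HahnSeries.order_mul ha0 hb0
  rw [hm, HahnSeries.order_one, hb] at this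
  exact ⟨by omega, ha0⟩

theorem exists_poly_of_pole (m : ℕ) : ∀ f : rN N K, (∀ γ ∈ Gamma 2, rAct γ f = f) →
    OrdGE 0 (rSer (rAct (cuspRep 0) f)) → OrdGE 0 (rSer (rAct (cuspRep 1) f)) →
    OrdGE (-((m * h : ℕ) : ℤ)) (rSer (rAct (cuspRep 2) f)) →
    ∃ P : K[X], f = P.eval₂ rC (lam hN K hζ) := by
  have hh := half_pos hN
  obtain ⟨hA, hA0⟩ := order_TS hN K hζ
  set lamR := lam hN K hζ
  set A := rSer (rAct (ModularGroup.T * ModularGroup.S) lamR)
  induction m with
  | zero =>
    intro f hinv h0 h1 h2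
    obtain ⟨c, hc⟩ := eq_rC_of_ordGE hN K hζ hinv fun r => by
      fin_cases r
      · exact h0
      · exact h1
      · simpa using h2
    exact ⟨C c, by rw [eval₂_C, hc]⟩
  | succ m ih =>
    intro f hinv h0 h1 h2
    set k : ℤ := -(((m + 1) * h : ℕ) : ℤ)
    have hAk : (A ^ (m + 1)).order = k := by
      rw [HahnSeries.order_pow, hA, nsmul_eq_mul]
      simp only [k]; push_cast; ring
    have hl : (A ^ (m + 1)).coeff k ≠ 0 := by
      rw [← hAk]; exact HahnSeries.coeff_order_eq_zero.not.2 (pow_ne_zero _ hA0)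
    set c : K := (rSer (rAct (cuspRep 2) f)).coeff k / (A ^ (m + 1)).coeff k
    set f' : rN N K := f - rC c * lamR ^ (m + 1)
    have hlaminv : ∀ γ ∈ Gamma 2, rAct γ lamR = lamR := fun γ hγ =>
      rAct_lam_gamma_two hN K hζ hγ
    have hinv' : ∀ γ ∈ Gamma 2, rAct γ f' = f' := fun γ hγ => by
      simp only [f', map_sub, map_mul, map_pow, rAct_rC, hinv γ hγ, hlaminv γ hγ]
    have hsub : ∀ g, rSer (rAct g f') =
        rSer (rAct g f) - HahnSeries.C c * rSer (rAct g lamR) ^ (m + 1) := fun g => by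
      simp only [f', map_sub, map_mul, map_pow, rAct_rC, rSer_rC]
    have hpow : ∀ {S : LaurentSeries K}, OrdGE 0 S → OrdGE 0 (HahnSeries.C c * S ^ (m + 1)) :=
      fun hS => by simpa using (ordGE_C c).mul ((hS.pow (m + 1)).mono (by simp))
    obtain ⟨P, hP⟩ := ih f' hinv' (by
        rw [hsub]
        refine h0.sub (hpow ?_)
        show OrdGE 0 (rSer (rAct 1 lamR))
        rw [rAct_one]
        exact ordGE_rSer_lam hN K hζ) (by
        rw [hsub]
        refine h1.sub (hpow ?_)
        show OrdGE 0 (rSer (rAct ModularGroup.S lamR))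
        rw [rAct_S_lam hN K hζ]
        intro i hi
        exact (rSer_one_sub_lam hN K hζ).1 i (by omega)) (by
        intro i hi
        rw [hsub, HahnSeries.coeff_sub, HahnSeries.C_apply, coeff_single_zero_mul]
        show (rSer (rAct (cuspRep 2) f)).coeff i - c * (A ^ (m + 1)).coeff i = 0
        rcases lt_trichotomy i k with hik | hik | hik
        · rw [h2 i hik, HahnSeries.coeff_eq_zero_of_lt_order (by rw [hAk]; exact hik), mul_zero,
            sub_zero]
        · rw [hik, div_mul_cancel₀ _ hl, sub_self]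
        · have hd : ∀ F : rN N K, (∀ γ ∈ Gamma 2, rAct γ F = F) →
              (rSer (rAct (cuspRep 2) F)).coeff i = 0 := fun F hF => by
            by_contra hne
            obtain ⟨j, hj⟩ := dvd_of_coeff_ne hN K hζ hF (cuspRep 2) hne
            rw [hj] at hik hi
            have hh' : (0 : ℤ) < h := by exact_mod_cast hh
            simp only [k, Nat.cast_mul, Nat.cast_add, Nat.cast_one] at hik
            push_cast at hi
            have e1 : -((m : ℤ) + 1) < j := by
              by_contra hc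
              push Not at hc
              nlinarith
            have e2 : j < -(m : ℤ) := by
              by_contra hc
              push Not at hc
              nlinarith
            omega
          rw [hd f hinv, show (A ^ (m + 1)).coeff i = (rSer (rAct (cuspRep 2) (lamR ^ (m + 1)))).coeff i by
            rw [map_pow, map_pow]; rfl, hd _ (fun γ hγ => by rw [map_pow, hlaminv γ hγ]), mul_zero,
            sub_zero])
    refine ⟨P + C c * X ^ (m + 1), ?_⟩
    rw [eval₂_add, ← hP, eval₂_mul, eval₂_C, eval₂_pow, eval₂_X]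
    simp [f']

/-- **Invariants of `Γ(2)` are polynomials in `λ` up to powers of `λ` and `1 - λ`.** -/
theorem exists_poly_lam {f : rN N K} (hinv : ∀ γ ∈ Gamma 2, rAct γ f = f) :
    ∃ (a b : ℕ) (P : K[X]),
      f * lam hN K hζ ^ a * (1 - lam hN K hζ) ^ b = P.eval₂ rC (lam hN K hζ) := by
  have hh := half_pos hN
  set lamR := lam hN K hζ
  obtain ⟨u, hu⟩ : ∃ u : ℕ, ∀ r, OrdGE (-((u * h : ℕ) : ℤ)) (rSer (rAct (cuspRep r) f)) := by
    refine ⟨∑ r, (-(rSer (rAct (cuspRep r) f)).order).toNat, fun r => (ordGE_order _).mono ?_⟩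
    have h1 : (-(rSer (rAct (cuspRep r) f)).order).toNat ≤
        ∑ r, (-(rSer (rAct (cuspRep r) f)).order).toNat :=
      Finset.single_le_sum (f := fun r => (-(rSer (rAct (cuspRep r) f)).order).toNat)
        (fun _ _ => Nat.zero_le _) (Finset.mem_univ r)
    have h2 := Nat.le_mul_of_pos_right (∑ r, (-(rSer (rAct (cuspRep r) f)).order).toNat) hh
    omega
  have hb : OrdGE (h : ℤ) (rSer (1 - lamR)) := fun i hi => (rSer_one_sub_lam hN K hζ).1 i hi
  have hl := ordGE_rSer_lam hN K hζ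
  obtain ⟨hA, hA0⟩ := order_TS hN K hζ
  have hA' : OrdGE (-(h : ℤ)) (rSer (rAct (ModularGroup.T * ModularGroup.S) lamR)) :=
    hA ▸ ordGE_order _
  have hlaminv : ∀ γ ∈ Gamma 2, rAct γ lamR = lamR := fun γ hγ =>
    rAct_lam_gamma_two hN K hζ hγ
  obtain ⟨P, hP⟩ := exists_poly_of_pole hN K hζ (3 * u) (f * lamR ^ u * (1 - lamR) ^ u)
    (fun γ hγ => by
      simp only [map_mul, map_pow, map_sub, map_one, hinv γ hγ, hlaminv γ hγ])
    (by
      show OrdGE 0 (rSer (rAct 1 (f * lamR ^ u * (1 - lamR) ^ u)))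
      rw [rAct_one, map_mul, map_mul, map_pow, map_pow]
      have h0 := hu 0
      change OrdGE _ (rSer (rAct 1 f)) at h0
      rw [rAct_one] at h0
      exact ((h0.mul (hl.pow u)).mul (hb.pow u)).mono (by push_cast; linarith))
    (by
      show OrdGE 0 (rSer (rAct ModularGroup.S (f * lamR ^ u * (1 - lamR) ^ u)))
      simp only [map_mul, map_pow]
      rw [rAct_S_lam hN K hζ, rAct_S_one_sub hN K hζ]
      exact (((hu 1).mul (hb.pow u)).mul (hl.pow u)).mono (by push_cast; linarith))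
    (by
      show OrdGE _ (rSer (rAct (ModularGroup.T * ModularGroup.S) (f * lamR ^ u * (1 - lamR) ^ u)))
      simp only [map_mul, map_pow]
      have hA'' : OrdGE (-(h : ℤ))
          (rSer (rAct (ModularGroup.T * ModularGroup.S) (1 - lamR))) := by
        rw [map_sub, map_sub, map_one, map_one]
        exact (ordGE_one.mono (by omega)).sub hA'
      exact (((hu 2).mul (hA'.pow u)).mul (hA''.pow u)).mono (by push_cast; linarith))
  exact ⟨u, u, P, hP⟩

end FA.Carayol
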