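import Fermat.Agent.Carayol.Field.Artin
import Fermat.Agent.Carayol.Field.Invariant

/-!
# The action of `Γ(2)` on the field of level `N`: faithfulness, invariants, generators
-/

set_option autoImplicit false
set_option linter.unusedSectionVars false
set_option linter.style.haveILetI false

noncomputable section

namespace FA.Carayol

open UpperHalfPlane hiding I
open CongruenceSubgroup HahnSeries ModularCurve FA.Level FA.ModField FA.Mazur.Wp Polynomial
open scoped MatrixGroups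

variable {N : ℕ} [NeZero N] {K : Subfield ℂ}

/-- Translation as an automorphism. -/
def flEquiv (g : SL(2, ℤ)) : flN N K ≃+* flN N K :=
  { flAct g with
    invFun := flAct g⁻¹
    left_inv := fun x => by
      show flAct g⁻¹ (flAct g x) = x
      rw [← flAct_mul, mul_inv_cancel, flAct_one]
    right_inv := fun x => by
      show flAct g (flAct g⁻¹ x) = x
      rw [← flAct_mul, inv_mul_cancel, flAct_one] }

theorem flEquiv_apply (g : SL(2, ℤ)) (x : flN N K) : flEquiv g x = flAct g x := rfl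

variable (N K) in
/-- Translation as a homomorphism. -/
def flHom : SL(2, ℤ) →* (flN N K ≃+* flN N K) where
  toFun g := flEquiv g⁻¹
  map_one' := RingEquiv.ext fun x => by rw [flEquiv_apply, inv_one, flAct_one]; rfl
  map_mul' g g' := RingEquiv.ext fun x => by
    show flAct (g * g')⁻¹ x = flAct g⁻¹ (flAct g'⁻¹ x)
    rw [mul_inv_rev, flAct_mul]

theorem gamma_le_ker_flHom : Gamma N ≤ (flHom N K).ker := fun γ hγ => by
  refine RingEquiv.ext fun x => Subtype.ext ?_
  exact merSL_eq_self (inv_mem hγ) x.2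

variable (N K) in
/-- The image of `Γ(2)`. -/
def galG : Subgroup (flN N K ≃+* flN N K) := (Gamma 2).map (flHom N K)

theorem finite_range_flHom : Finite (flHom N K).range := by
  haveI : (flHom N K).ker.FiniteIndex := Subgroup.finiteIndex_of_le gamma_le_ker_flHom
  exact Finite.of_equiv _ (QuotientGroup.quotientKerEquivRange (flHom N K)).toEquiv

instance finite_galG : Finite (galG N K) := by
  haveI := finite_range_flHom (N := N) (K := K)
  exact Finite.of_injective
    (fun x => (⟨x.1, Subgroup.map_le_range (flHom N K) (Gamma 2) x.2⟩ : (flHom N K).range))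
    fun a b hab => Subtype.ext (congrArg (fun y : (flHom N K).range => y.1) hab)

theorem flAct_mem_galG {γ : SL(2, ℤ)} (hγ : γ ∈ Gamma 2) : flEquiv γ ∈ galG N K :=
  ⟨γ⁻¹, inv_mem hγ, by show flEquiv γ⁻¹⁻¹ = _; rw [inv_inv]⟩

theorem rMer_rAct (g : SL(2, ℤ)) (f : rN N K) :
    (flAct g ⟨rMer N K f, rMer_mem f⟩ : flN N K) = ⟨rMer N K (rAct g f), rMer_mem _⟩ :=
  Subtype.ext (merSL_rMer g f)

/-- The element of the field. -/
def toFl : rN N K →+* flN N K := RingHom.codRestrict (rMer N K) (flN N K) rMer_mem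

theorem toFl_injective : Function.Injective (toFl (N := N) (K := K)) :=
  fun _ _ h => rMer_injective (congrArg Subtype.val h)

theorem flAct_toFl (g : SL(2, ℤ)) (f : rN N K) : flAct g (toFl f) = toFl (rAct g f) :=
  rMer_rAct g f

theorem exists_toFl_fraction (x : flN N K) : ∃ a b : rN N K, b ≠ 0 ∧ x * toFl b = toFl a := by
  obtain ⟨a, b, hb, h⟩ := exists_fraction x
  exact ⟨a, b, hb, Subtype.ext h⟩

variable {h : ℕ} (hN : N = 2 * h) (hζ : ∀ b : ℤ, eta N b ∈ K)
include hN hζ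

theorem invariant_mem_closure (c : rN N K) (hc : ∀ δ ∈ Gamma 2, rAct δ c = c) : toFl c ∈
    Subfield.closure (Set.range ((toFl (N := N)).comp rC) ∪ {toFl (lam hN K hζ)}) := by
  obtain ⟨i, j, P, hP⟩ := exists_poly_lam hN K hζ hc
  set E := Subfield.closure (Set.range ((toFl (N := N)).comp rC) ∪ {toFl (lam hN K hζ)})
  have hl : toFl (lam hN K hζ) ∈ E := Subfield.subset_closure (Or.inr rfl)
  have hl1 : toFl (1 - lam hN K hζ) ∈ E := by
    rw [map_sub, map_one]; exact sub_mem (one_mem _) hl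
  have hne1 : lam hN K hζ ≠ 0 := fun h0 => lamFun_ne_zero hN UpperHalfPlane.I
    (congrFun (congrArg (fun x : rN N K => ((x : holSub) : ℍ → ℂ)) h0) UpperHalfPlane.I)
  have hne2 : (1 - lam hN K hζ) ≠ 0 := fun h0 => by
    refine lamFun_ne_one hN UpperHalfPlane.I ?_
    have h2 := congrFun (congrArg (fun x : rN N K => ((x : holSub) : ℍ → ℂ)) h0) UpperHalfPlane.I
    exact (sub_eq_zero.1 h2).symm
  have hev : toFl (P.eval₂ rC (lam hN K hζ)) ∈ E := by
    rw [hom_eval₂, eval₂_eq_sum_range]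
    exact sum_mem fun k _ => mul_mem (Subfield.subset_closure (Or.inl ⟨_, rfl⟩)) (pow_mem hl k)
  rw [← hP, map_mul, map_mul, map_pow, map_pow] at hev
  have hd := div_mem (div_mem hev (pow_mem hl1 j)) (pow_mem hl i)
  rwa [mul_div_cancel_right₀ _ (pow_ne_zero _ ((map_ne_zero_iff _ toFl_injective).2 hne2)),
    mul_div_cancel_right₀ _ (pow_ne_zero _ ((map_ne_zero_iff _ toFl_injective).2 hne1))] at hd

/-- The fixed elements are rational functions of `λ`. -/
theorem fixed_mem_closure {x : flN N K} (hx : ∀ g ∈ galG N K, g x = x) :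
    x ∈ Subfield.closure (Set.range ((toFl (N := N)).comp rC) ∪ {toFl (lam hN K hζ)}) := by
  classical
  haveI : Fintype (galG N K) := Fintype.ofFinite _
  obtain ⟨a, b, hb, hab⟩ := exists_toFl_fraction x
  have hlift : ∀ g : galG N K, ∃ γ ∈ Gamma 2, ∀ c : rN N K, (g : _ ≃+* _) (toFl c) = toFl (rAct γ c) := by
    rintro ⟨_, γ, hγ, rfl⟩
    exact ⟨γ⁻¹, inv_mem hγ, fun c => flAct_toFl γ⁻¹ c⟩
  choose γ hγ hγc using hlift
  set b' : rN N K := ∏ g, rAct (γ g) b
  have hb' : toFl b' = ∏ g : galG N K, (g : _ ≃+* _) (toFl b) := by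
    rw [map_prod]; simp only [hγc]
  have hne : b' ≠ 0 := fun h0 => by
    rw [h0, map_zero, eq_comm, Finset.prod_eq_zero_iff] at hb'
    obtain ⟨g, -, hg⟩ := hb'
    exact (map_ne_zero_iff _ toFl_injective).2 hb ((map_eq_zero_iff _ (RingEquiv.injective _)).1 hg)
  have hfix : ∀ g ∈ galG N K, g (toFl b') = toFl b' := fun g hg => by
    rw [hb', map_prod]
    refine Fintype.prod_equiv (Equiv.mulLeft (⟨g, hg⟩ : galG N K)) _ _ fun g' => ?_
    rfl
  set a' : rN N K := a * ∏ g ∈ Finset.univ.erase (1 : galG N K), rAct (γ g) b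
  have ha' : x * toFl b' = toFl a' := by
    have hone : rAct (γ 1) b = b := toFl_injective (by rw [← hγc]; rfl)
    rw [show b' = rAct (γ 1) b * ∏ g ∈ Finset.univ.erase (1 : galG N K), rAct (γ g) b from
      (Finset.mul_prod_erase _ _ (Finset.mem_univ _)).symm, hone, map_mul, ← mul_assoc, hab,
      ← map_mul]
  have hinv : ∀ c : rN N K, (∀ g ∈ galG N K, g (toFl c) = toFl c) →
      ∀ δ ∈ Gamma 2, rAct δ c = c := fun c hc δ hδ => toFl_injective (by
    rw [← flAct_toFl]; exact hc _ (flAct_mem_galG hδ))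
  have hmem := invariant_mem_closure hN hζ
  have h1 := hmem a' (hinv a' fun g hg => by rw [← ha', map_mul, hx g hg, hfix g hg])
  have h2 := hmem b' (hinv b' hfix)
  rw [← ha'] at h1
  have hd := div_mem h1 h2
  rwa [mul_div_cancel_right₀ _ ((map_ne_zero_iff _ toFl_injective).2 hne)] at hd

/-- The element `X_v`. -/
def xv (v : ℤ × ℤ) (hv : IsVec N v) : rN N K :=
  ratHol K hζ hv (isVec_tA hN) (isVec_tB hN) (apart_ab hN)

theorem xVal_vmul_two {γ : SL(2, ℤ)} (hγ : γ ∈ Gamma 2) (τ : ℍ) :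
    xVal N (vmul (tA h) γ).1 (vmul (tA h) γ).2 τ = xVal N (tA h).1 (tA h).2 τ ∧
      xVal N (vmul (tB h) γ).1 (vmul (tB h) γ).2 τ = xVal N (tB h).1 (tB h).2 τ := by
  rw [Gamma_mem] at hγ
  have d1 : (2 : ℤ) ∣ γ 0 0 - 1 := by
    rw [show (2 : ℤ) = ((2 : ℕ) : ℤ) from rfl, ← ZMod.intCast_zmod_eq_zero_iff_dvd]; simp [hγ.1]
  have d4 : (2 : ℤ) ∣ γ 1 1 - 1 := by
    rw [show (2 : ℤ) = ((2 : ℕ) : ℤ) from rfl, ← ZMod.intCast_zmod_eq_zero_iff_dvd]
    simp [hγ.2.2.2]
  have d2 : (2 : ℤ) ∣ γ 0 1 - 0 := by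
    rw [sub_zero]; exact (ZMod.intCast_zmod_eq_zero_iff_dvd _ 2).mp hγ.2.1
  have d3 : (2 : ℤ) ∣ γ 1 0 - 0 := by
    rw [sub_zero]; exact (ZMod.intCast_zmod_eq_zero_iff_dvd _ 2).mp hγ.2.2.1
  constructor
  · simp only [vmul, tA, zero_mul, add_zero]
    rw [xVal_two hN (γ 0 0) (γ 0 1) 1 0 d1 d2]; simp
  · simp only [vmul, tB, zero_mul, zero_add]
    rw [xVal_two hN (γ 1 0) (γ 1 1) 0 1 d3 d4]; simp

/-- An element of `Γ(2)` fixing `X_v` fixes `v` up to sign. -/
theorem vmul_of_fix_xv {γ : SL(2, ℤ)} (hγ : γ ∈ Gamma 2) {v : ℤ × ℤ} (hv : IsVec N v)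
    (hfix : rAct γ (xv hN hζ v hv) = xv hN hζ v hv) :
    ((N : ℤ) ∣ (vmul v γ - v).1 ∧ (N : ℤ) ∣ (vmul v γ - v).2) ∨
      ((N : ℤ) ∣ (vmul v γ + v).1 ∧ (N : ℤ) ∣ (vmul v γ + v).2) := by
  by_contra hne
  rw [not_or] at hne
  have h1 : ratFun N v (tA h) (tB h) (γ • UpperHalfPlane.I) =
      ratFun N v (tA h) (tB h) UpperHalfPlane.I :=
    congrFun (congrArg (fun x : rN N K => ((x : holSub) : ℍ → ℂ)) hfix) UpperHalfPlane.I
  rw [ratFun_smul] at h1
  obtain ⟨e1, e2⟩ := xVal_vmul_two hN hζ hγ UpperHalfPlane.I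
  simp only [ratFun] at h1
  rw [e1, e2, div_left_inj' (sub_ne_zero.2
    (xVal_ne (isVec_tA hN) (isVec_tB hN) (apart_ab hN) UpperHalfPlane.I)), sub_left_inj] at h1
  exact xVal_ne (hv.vmul γ) hv ⟨hne.1, hne.2⟩ UpperHalfPlane.I h1

/-- A set fixed only by the identity generates the field. -/
theorem eq_top_of_fixed_trivial (S : Set (flN N K))
    (hS : ∀ γ ∈ Gamma 2, (∀ x ∈ S, flAct γ x = x) → ∀ x : flN N K, flAct γ x = x) :
    Subfield.closure (Set.range ((toFl (N := N)).comp rC) ∪ {toFl (lam hN K hζ)} ∪ S) = ⊤ := by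
  rw [eq_top_iff, ← closure_eq_top_of_fixed_trivial (galG N K) S (by
    rintro g ⟨γ, hγ, rfl⟩ hg
    exact RingEquiv.ext fun x => hS _ (inv_mem hγ) hg x), Subfield.closure_le]
  rintro x (hx | hx)
  · exact Subfield.closure_mono Set.subset_union_left (fixed_mem_closure hN hζ hx)
  · exact Subfield.subset_closure (Or.inr hx)

theorem mem_gamma_of_fix {γ : SL(2, ℤ)} (hγ : γ ∈ Gamma 2)
    (hv : ∀ (v : ℤ × ℤ) (hv : IsVec N v), rAct γ (xv hN hζ v hv) = xv hN hζ v hv) (hh : 2 ≤ h) :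
    γ ∈ Gamma N ∨ -γ ∈ Gamma N := by
  have hN1 : ¬ (N : ℤ) ∣ 1 := fun hd => by
    have := Int.le_of_dvd one_pos hd; omega
  have h2 : ¬ (N : ℤ) ∣ 2 := fun hd => by
    have := Int.le_of_dvd two_pos hd; omega
  have a := vmul_of_fix_xv hN hζ hγ (v := (1, 0)) (fun h => hN1 h.1) (hv _ _)
  have b := vmul_of_fix_xv hN hζ hγ (v := (0, 1)) (fun h => hN1 h.2) (hv _ _)
  have c := vmul_of_fix_xv hN hζ hγ (v := (1, 1)) (fun h => hN1 h.1) (hv _ _)
  simp only [vmul, one_mul, zero_mul, add_zero, zero_add, Prod.fst_sub, Prod.snd_sub, Prod.fst_add,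
    Prod.snd_add, sub_zero, add_zero] at a b c
  simp only [← ZMod.intCast_zmod_eq_zero_iff_dvd, Int.cast_add, Int.cast_sub, Int.cast_one] at a b c
  rw [← ZMod.intCast_zmod_eq_zero_iff_dvd, Int.cast_ofNat] at h2
  rw [Gamma_mem, Gamma_mem]
  simp only [Matrix.SpecialLinearGroup.coe_neg, Matrix.neg_apply, Int.cast_neg, neg_eq_zero]
  rcases a with a | a <;> rcases b with b | b
  · exact Or.inl ⟨sub_eq_zero.1 a.1, a.2, b.1, sub_eq_zero.1 b.2⟩
  · exfalso
    rcases c with c | c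
    · exact h2 (by linear_combination b.2 + a.2 - c.2)
    · exact h2 (by linear_combination c.1 - a.1 - b.1)
  · exfalso
    rcases c with c | c
    · exact h2 (by linear_combination a.1 + b.1 - c.1)
    · exact h2 (by linear_combination c.2 - b.2 - a.2)
  · exact Or.inr ⟨by linear_combination -a.1, a.2, b.1, by linear_combination -b.2⟩

/-- The abscissae generate the field. -/
theorem eq_top_xv (hh : 2 ≤ h) : Subfield.closure (Set.range ((toFl (N := N)).comp rC) ∪
    {toFl (lam hN K hζ)} ∪ {y | ∃ v hv, y = toFl (xv hN hζ v hv)}) = ⊤ := by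
  refine eq_top_of_fixed_trivial hN hζ _ fun γ hγ hfix x => Subtype.ext ?_
  rcases mem_gamma_of_fix hN hζ hγ (fun v hv => toFl_injective (by
    rw [← flAct_toFl]; exact hfix _ ⟨v, hv, rfl⟩)) hh with hm | hm
  · exact merSL_eq_self hm x.2
  · have hneg : merSL γ = merSL (-γ) :=
      merComp_congr _ _ (funext fun z => (ModularGroup.SL_neg_smul γ z).symm)
    rw [coe_flAct, hneg]
    exact merSL_eq_self hm x.2

end FA.Carayol
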