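import Mathlib

/-!
# Generation of a field over the fixed field of a finite group
-/

set_option autoImplicit false
set_option linter.unusedSectionVars false
set_option linter.style.haveILetI false

noncomputable section

namespace FA.Carayol

/-- If only the identity of a finite group of automorphisms fixes a set, the set generates the field
over the fixed field. -/
theorem closure_eq_top_of_fixed_trivial {F : Type*} [Field F] (G : Subgroup (F ≃+* F)) [Finite G]
    (S : Set F) (h : ∀ g ∈ G, (∀ x ∈ S, g x = x) → g = 1) :
    Subfield.closure ({x | ∀ g ∈ G, g x = x} ∪ S) = ⊤ := by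
  classical
  haveI : FaithfulSMul G F := ⟨fun {a b} hab => Subtype.ext (RingEquiv.ext fun x => hab x)⟩
  haveI : IsGalois (FixedPoints.subfield G F) F := ⟨⟩
  let E : IntermediateField (FixedPoints.subfield G F) F :=
    { Subfield.closure ({x | ∀ g ∈ G, g x = x} ∪ S) with
      algebraMap_mem' := fun c => Subfield.subset_closure (Or.inl fun g hg => c.2 ⟨g, hg⟩) }
  have hE : E.fixingSubgroup = ⊥ := by
    rw [eq_bot_iff]
    intro σ hσ
    obtain ⟨g, rfl⟩ := FixedPoints.toAlgAut_surjective G F σ
    rw [Subgroup.mem_bot]
    have hg : (g : F ≃+* F) = 1 := h g g.2 fun x hx =>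
      (IntermediateField.mem_fixingSubgroup_iff _ _).1 hσ x (Subfield.subset_closure (Or.inr hx))
    rw [show g = 1 from Subtype.ext hg, map_one]
  have hfix := IsGalois.fixedField_fixingSubgroup E
  rw [hE, IntermediateField.fixedField_bot] at hfix
  refine eq_top_iff.2 fun x _ => ?_
  have hx : x ∈ E := by rw [← hfix]; exact IntermediateField.mem_top
  exact hx

end FA.Carayol
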