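import Fermat.Agent.Carayol.Field.Fixed

/-!
# Descent of coefficients by the expansion at infinity
-/

set_option autoImplicit false
set_option linter.unusedSectionVars false
set_option linter.style.haveILetI false

noncomputable section

namespace FA.Carayol

open UpperHalfPlane hiding I
open CongruenceSubgroup HahnSeries ModularCurve FA.Level FA.ModField FA.Mazur.Wp
open scoped MatrixGroups

variable {N : ℕ} [NeZero N]

theorem rN_mono {K K' : Subfield ℂ} (hKK : K ≤ K') : rN N K ≤ rN N K' := fun f hf => by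
  rw [mem_rN] at hf ⊢
  refine ⟨hf.1, fun g => ?_⟩
  obtain ⟨S, hS⟩ := hf.2 g
  refine ⟨coeffMap (Subfield.inclusion hKK) S, ?_⟩
  unfold HasKExp at hS ⊢
  rw [coeffMap_coeffMap]
  exact hS

theorem flN_mono {K K' : Subfield ℂ} (hKK : K ≤ K') : flN N K ≤ flN N K' := by
  rintro x ⟨a, b, hb, h⟩
  exact ⟨⟨a.1, rN_mono hKK a.2⟩, ⟨b.1, rN_mono hKK b.2⟩,
    fun h0 => hb (Subtype.ext (congrArg (fun y : rN N K' => (y : holSub)) h0)), h⟩

theorem rSer_mono {K K' : Subfield ℂ} (hKK : K ≤ K') (f : rN N K) :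
    rSer (⟨f.1, rN_mono hKK f.2⟩ : rN N K') = coeffMap (Subfield.inclusion hKK) (rSer f) :=
  rSer_eq (by
    unfold HasKExp
    rw [coeffMap_coeffMap]
    exact rSer_spec f)

/-- The functions spanned over `ℂ` by those with coefficients in `K`. -/
def spanFuns (N : ℕ) [NeZero N] (K : Subfield ℂ) : Submodule ℂ (ℍ → ℂ) :=
  Submodule.span ℂ (Set.range fun c : rN N K => ((c : holSub) : ℍ → ℂ))

variable {K : Subfield ℂ}

theorem mul_mem_spanFuns {a b : ℍ → ℂ} (ha : a ∈ spanFuns N K) (hb : b ∈ spanFuns N K) :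
    a * b ∈ spanFuns N K := by
  have h := Submodule.mul_mem_mul ha hb
  rw [spanFuns, Submodule.span_mul_span] at h
  refine Submodule.span_le.2 ?_ h
  rintro _ ⟨_, ⟨c, rfl⟩, _, ⟨d, rfl⟩, rfl⟩
  exact Submodule.subset_span ⟨c * d, rfl⟩

theorem one_mem_spanFuns : (1 : ℍ → ℂ) ∈ spanFuns N K := Submodule.subset_span ⟨1, rfl⟩

theorem exists_functional_series {w : ℍ → ℂ} (hw : w ∈ spanFuns N K) :
    ∀ φ : ℂ →ₗ[K] K, ∃ S : LaurentSeries ℂ, HasExp (qp N) w S ∧
      ∃ c : rN N K, ∀ i, (rSer c).coeff i = φ (S.coeff i) := by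
  induction hw using Submodule.span_induction with
  | mem x hx =>
    obtain ⟨c, rfl⟩ := hx
    intro φ
    refine ⟨_, rSer_spec c, rC (φ 1) * c, fun i => ?_⟩
    rw [map_mul, rSer_rC, HahnSeries.C_apply, coeff_single_zero_mul, coeffMap_coeff]
    have h1 := φ.map_smul ((rSer c).coeff i) 1
    rw [Subfield.smul_def, smul_eq_mul, mul_one, smul_eq_mul] at h1
    rw [Subfield.coe_subtype, h1, mul_comm]
  | zero => exact fun φ => ⟨0, hasExp_zero, 0, fun i => by simp⟩
  | add x y _ _ hx hy =>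
    intro φ
    obtain ⟨S, hS, c, hc⟩ := hx φ
    obtain ⟨T, hT, d, hd⟩ := hy φ
    exact ⟨S + T, hS.add hT, c + d, fun i => by simp [hc, hd]⟩
  | smul r x _ hx =>
    intro φ
    obtain ⟨S, hS, c, hc⟩ := hx (φ ∘ₗ (LinearMap.mulLeft K r))
    refine ⟨HahnSeries.C r * S, ((hasExp_C r).mul (qp_ne_zero N) hS).congr rfl, c, fun i => ?_⟩
    rw [hc, HahnSeries.C_apply, coeff_single_zero_mul]
    rfl

variable {h : ℕ} (hN : N = 2 * h) (hh : 2 ≤ h) (hζ : ∀ b : ℤ, eta N b ∈ K)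
include hN hh hζ

/-- Over `ℂ` every function is a quotient of spans. -/
theorem exists_span_fraction (x : flN N (⊤ : Subfield ℂ)) :
    ∃ a b : rN N (⊤ : Subfield ℂ), b ≠ 0 ∧ ((a : holSub) : ℍ → ℂ) ∈ spanFuns N K ∧
      ((b : holSub) : ℍ → ℂ) ∈ spanFuns N K ∧ x * toFl b = toFl a := by
  have hx : x ∈ (⊤ : Subfield (flN N (⊤ : Subfield ℂ))) := Subfield.mem_top x
  rw [← eq_top_xv hN (K := (⊤ : Subfield ℂ)) (fun _ => Subfield.mem_top _) hh] at hx
  have hgen : ∀ a : rN N (⊤ : Subfield ℂ), ((a : holSub) : ℍ → ℂ) ∈ spanFuns N K →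
      ∃ a' b : rN N (⊤ : Subfield ℂ), b ≠ 0 ∧ ((a' : holSub) : ℍ → ℂ) ∈ spanFuns N K ∧
        ((b : holSub) : ℍ → ℂ) ∈ spanFuns N K ∧ toFl a * toFl b = toFl a' := fun a ha =>
    ⟨a, 1, one_ne_zero, ha, one_mem_spanFuns, by rw [map_one, mul_one]⟩
  induction hx using Subfield.closure_induction with
  | mem y hy =>
    rcases hy with (⟨c, rfl⟩ | rfl) | ⟨v, hv, rfl⟩
    · refine hgen _ ?_
      have h1 := (spanFuns N K).smul_mem (c : ℂ) one_mem_spanFuns
      convert h1 using 1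
      funext z
      show (c : ℂ) = (c : ℂ) • (1 : ℍ → ℂ) z
      simp
    · exact hgen _ (Submodule.subset_span ⟨lam hN K hζ, rfl⟩)
    · exact hgen _ (Submodule.subset_span ⟨xv hN hζ v hv, rfl⟩)
  | one => exact ⟨1, 1, one_ne_zero, one_mem_spanFuns, one_mem_spanFuns, by rw [map_one, mul_one]⟩
  | add x y _ _ hx hy =>
    obtain ⟨a, b, hb, ma, mb, e1⟩ := hx
    obtain ⟨c, d, hd, mc, md, e2⟩ := hy
    refine ⟨a * d + c * b, b * d, mul_ne_zero hb hd,
      add_mem (mul_mem_spanFuns ma md) (mul_mem_spanFuns mc mb), mul_mem_spanFuns mb md, ?_⟩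
    rw [map_add, map_mul, map_mul, map_mul, ← e1, ← e2]; ring
  | neg x _ hx =>
    obtain ⟨a, b, hb, ma, mb, e1⟩ := hx
    exact ⟨-a, b, hb, neg_mem ma, mb, by rw [map_neg, ← e1, neg_mul]⟩
  | inv x _ hx =>
    obtain ⟨a, b, hb, ma, mb, e1⟩ := hx
    rcases eq_or_ne x 0 with rfl | h0
    · exact ⟨0, 1, one_ne_zero, zero_mem _, one_mem_spanFuns, by simp⟩
    refine ⟨b, a, fun ha => ?_, mb, ma, by rw [← e1, inv_mul_cancel_left₀ h0]⟩
    rw [ha, map_zero, mul_eq_zero] at e1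
    exact e1.elim h0 ((map_ne_zero_iff _ toFl_injective).2 hb)
  | mul x y _ _ hx hy =>
    obtain ⟨a, b, hb, ma, mb, e1⟩ := hx
    obtain ⟨c, d, hd, mc, md, e2⟩ := hy
    exact ⟨a * c, b * d, mul_ne_zero hb hd, mul_mem_spanFuns ma mc, mul_mem_spanFuns mb md,
      by rw [map_mul, map_mul, ← e1, ← e2]; ring⟩

/-- **A function whose expansion at infinity has coefficients in `K` is defined over `K`.** -/
theorem mem_flN_of_ser (x : flN N (⊤ : Subfield ℂ)) (hx : ∀ i, ((ser x).coeff i : ℂ) ∈ K) :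
    (x : Mer) ∈ flN N K := by
  obtain ⟨a, b, hb, ma, mb, he⟩ := exists_span_fraction hN hh hζ x
  set s : LaurentSeries K := ⟨fun i => ⟨((ser x).coeff i : ℂ), hx i⟩,
    (ser x).isPWO_support.mono fun i hi h0 => hi (Subtype.ext (show ((ser x).coeff i : ℂ) = 0 by
      rw [h0]; rfl))⟩
  have hser := congrArg ser he
  rw [map_mul, show ser (toFl b) = rSer b from ser_rMer b,
    show ser (toFl a) = rSer a from ser_rMer a] at hser
  have hser' := congrArg (coeffMap (⊤ : Subfield ℂ).subtype) hser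
  rw [map_mul, show coeffMap (⊤ : Subfield ℂ).subtype (ser x) = coeffMap K.subtype s from
    HahnSeries.ext (funext fun i => rfl)] at hser'
  set SB := coeffMap (⊤ : Subfield ℂ).subtype (rSer b)
  set SA := coeffMap (⊤ : Subfield ℂ).subtype (rSer a)
  have hSB : SB ≠ 0 := fun h0 => hb (rSer_injective (HahnSeries.ext (funext fun i => Subtype.ext (by
    have := congrArg (fun t : LaurentSeries ℂ => t.coeff i) h0
    simpa [SB] using this))))
  obtain ⟨φ, hφ⟩ : ∃ φ : ℂ →ₗ[K] K, φ (SB.coeff SB.order) ≠ 0 :=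
    Module.Projective.exists_dual_ne_zero K (HahnSeries.coeff_order_eq_zero.not.2 hSB)
  obtain ⟨S, hS, A, hA⟩ := exists_functional_series ma φ
  obtain ⟨T, hT, B, hB⟩ := exists_functional_series mb φ
  obtain rfl : SA = S := HasExp.unique (covers_qp N) (rSer_spec a) hS
  obtain rfl : SB = T := HasExp.unique (covers_qp N) (rSer_spec b) hT
  have hB0 : B ≠ 0 := fun h0 => hφ (by rw [← hB, h0, map_zero]; rfl)
  have key : s * rSer B = rSer A := by
    have h1 := FA.Level.coeffFun_coeffMap_mul φ s SB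
    have eA : rSer A = coeffFun φ SA := HahnSeries.ext (funext fun i => by rw [coeffFun_coeff, hA])
    have eB : rSer B = coeffFun φ SB := HahnSeries.ext (funext fun i => by rw [coeffFun_coeff, hB])
    rw [eA, eB, ← hser']
    exact h1.symm
  refine ⟨A, B, hB0, ?_⟩
  have hA' : rMer N K A = rMer N (⊤ : Subfield ℂ) ⟨A.1, rN_mono le_top A.2⟩ := rfl
  have hB' : rMer N K B = rMer N (⊤ : Subfield ℂ) ⟨B.1, rN_mono le_top B.2⟩ := rfl
  rw [hA', hB']
  refine congrArg Subtype.val (ser_injective (a₁ := x * toFl ⟨B.1, rN_mono le_top B.2⟩)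
    (a₂ := toFl ⟨A.1, rN_mono le_top A.2⟩) ?_)
  rw [map_mul, show ser (toFl (⟨B.1, rN_mono le_top B.2⟩ : rN N (⊤ : Subfield ℂ))) = rSer _ from
    ser_rMer _, show ser (toFl (⟨A.1, rN_mono le_top A.2⟩ : rN N (⊤ : Subfield ℂ))) = rSer _ from
    ser_rMer _, rSer_mono le_top, rSer_mono le_top, ← key, map_mul]
  congr 1

end FA.Carayol
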