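import Fermat.Agent.Level.Mer
import Fermat.Prelude.Def_ModularCurve_LaurentCoeff

/-!
# Modular functions of level `N` with coefficients in a subfield

`rN N K`: holomorphic `Γ(N)`-invariant functions all of whose translates have expansions in
`exp (2 π i z / N)` with coefficients in `K`; `flN N K` is its fraction field inside `Mer`.
-/

set_option autoImplicit false
set_option linter.unusedSectionVars false

noncomputable section

namespace FA.Carayol

open UpperHalfPlane hiding I
open CongruenceSubgroup HahnSeries ModularCurve FA.Level FA.ModField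
open scoped MatrixGroups

variable (N : ℕ) [NeZero N] (K : Subfield ℂ)

/-- `f` has the expansion `S`, with coefficients in `K`, at infinity. -/
def HasKExp (f : ℍ → ℂ) (S : LaurentSeries K) : Prop :=
  HasExp (qp N) f (coeffMap K.subtype S)

variable {N K}

theorem HasKExp.unique {f : ℍ → ℂ} {S S' : LaurentSeries K} (h : HasKExp N K f S)
    (h' : HasKExp N K f S') : S = S' :=
  HahnSeries.ext (funext fun i => K.subtype.injective (by
    have h0 := congrArg (fun s : LaurentSeries ℂ => s.coeff i) (HasExp.unique (covers_qp N) h h')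
    simpa using h0))

variable (N K)

/-- The ring of functions of level `N` over `K`. -/
def rN : Subring holSub where
  carrier := {f | (∀ γ ∈ Gamma N, ∀ z, (f : ℍ → ℂ) (γ • z) = (f : ℍ → ℂ) z) ∧
    ∀ g : SL(2, ℤ), ∃ S, HasKExp N K (fun z => (f : ℍ → ℂ) (g • z)) S}
  one_mem' := ⟨fun _ _ _ => rfl, fun _ => ⟨1, by
    unfold HasKExp; rw [map_one]; exact hasExp_one⟩⟩
  zero_mem' := ⟨fun _ _ _ => rfl, fun _ => ⟨0, by
    unfold HasKExp; rw [map_zero]; exact hasExp_zero⟩⟩
  add_mem' := by
    rintro a b ⟨ha, ha'⟩ ⟨hb, hb'⟩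
    refine ⟨fun γ hγ z => congrArg₂ (· + ·) (ha γ hγ z) (hb γ hγ z), fun g => ?_⟩
    obtain ⟨S, hS⟩ := ha' g
    obtain ⟨T, hT⟩ := hb' g
    exact ⟨S + T, by unfold HasKExp at *; rw [map_add]; exact hS.add hT⟩
  mul_mem' := by
    rintro a b ⟨ha, ha'⟩ ⟨hb, hb'⟩
    refine ⟨fun γ hγ z => congrArg₂ (· * ·) (ha γ hγ z) (hb γ hγ z), fun g => ?_⟩
    obtain ⟨S, hS⟩ := ha' g
    obtain ⟨T, hT⟩ := hb' g
    exact ⟨S * T, by unfold HasKExp at *; rw [map_mul]; exact hS.mul (qp_ne_zero N) hT⟩
  neg_mem' := by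
    rintro a ⟨ha, ha'⟩
    refine ⟨fun γ hγ z => congrArg Neg.neg (ha γ hγ z), fun g => ?_⟩
    obtain ⟨S, hS⟩ := ha' g
    exact ⟨-S, by unfold HasKExp at *; rw [map_neg]; exact hS.neg⟩

variable {N K}

theorem mem_rN {f : holSub} : f ∈ rN N K ↔
    (∀ γ ∈ Gamma N, ∀ z, (f : ℍ → ℂ) (γ • z) = (f : ℍ → ℂ) z) ∧
      ∀ g : SL(2, ℤ), ∃ S, HasKExp N K (fun z => (f : ℍ → ℂ) (g • z)) S := Iff.rfl

theorem rN_exp (f : rN N K) (g : SL(2, ℤ)) :
    ∃ S, HasKExp N K (fun z => ((f : holSub) : ℍ → ℂ) (g • z)) S := (mem_rN.1 f.2).2 g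

theorem rN_invariant (f : rN N K) {γ : SL(2, ℤ)} (hγ : γ ∈ Gamma N) (z : ℍ) :
    ((f : holSub) : ℍ → ℂ) (γ • z) = ((f : holSub) : ℍ → ℂ) z := (mem_rN.1 f.2).1 γ hγ z

/-- The expansion at infinity. -/
def rSer : rN N K →+* LaurentSeries K where
  toFun f := (rN_exp f 1).choose
  map_one' := (rN_exp (1 : rN N K) 1).choose_spec.unique
    (show HasKExp N K (fun _ => 1) 1 by unfold HasKExp; rw [map_one]; exact hasExp_one)
  map_zero' := (rN_exp (0 : rN N K) 1).choose_spec.unique
    (show HasKExp N K (fun _ => 0) 0 by unfold HasKExp; rw [map_zero]; exact hasExp_zero)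
  map_add' a b := by
    refine (rN_exp (a + b) 1).choose_spec.unique ?_
    have h1 := (rN_exp a 1).choose_spec
    have h2 := (rN_exp b 1).choose_spec
    unfold HasKExp at *
    rw [map_add]
    exact h1.add h2
  map_mul' a b := by
    refine (rN_exp (a * b) 1).choose_spec.unique ?_
    have h1 := (rN_exp a 1).choose_spec
    have h2 := (rN_exp b 1).choose_spec
    unfold HasKExp at *
    rw [map_mul]
    exact h1.mul (qp_ne_zero N) h2

theorem rSer_spec (f : rN N K) : HasKExp N K ((f : holSub) : ℍ → ℂ) (rSer f) := by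
  have h := (rN_exp f 1).choose_spec
  simp only [one_smul] at h
  simp only [rSer, RingHom.coe_mk, MonoidHom.coe_mk, OneHom.coe_mk, one_smul]
  exact h

theorem rSer_eq {f : rN N K} {S : LaurentSeries K}
    (h : HasKExp N K ((f : holSub) : ℍ → ℂ) S) : rSer f = S := (rSer_spec f).unique h

theorem rSer_injective : Function.Injective (rSer (N := N) (K := K)) := fun a b h => by
  have h1 := rSer_spec a
  rw [h] at h1
  exact Subtype.ext (Subtype.ext (h1.fun_unique (rSer_spec b)))

theorem smul_Gamma_conj (g : SL(2, ℤ)) {γ : SL(2, ℤ)} (hγ : γ ∈ Gamma N) :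
    g * γ * g⁻¹ ∈ Gamma N := (Gamma_normal N).conj_mem _ hγ g

/-- Translation on `rN`. -/
def rAct (g : SL(2, ℤ)) : rN N K →+* rN N K :=
  RingHom.codRestrict ((holComp (isGoodMap_smul g)).comp (rN N K).subtype) (rN N K) fun f => by
    refine mem_rN.2 ⟨fun γ hγ z => ?_, fun g' => ?_⟩
    · show ((f : holSub) : ℍ → ℂ) (g • γ • z) = ((f : holSub) : ℍ → ℂ) (g • z)
      rw [← rN_invariant f (smul_Gamma_conj g hγ) (g • z)]
      simp only [← mul_smul, inv_mul_cancel_right]
    · obtain ⟨S, hS⟩ := rN_exp f (g * g')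
      refine ⟨S, ?_⟩
      show HasKExp N K (fun z => ((f : holSub) : ℍ → ℂ) (g • g' • z)) S
      simp only [← mul_smul]
      exact hS

theorem coe_rAct (g : SL(2, ℤ)) (f : rN N K) :
    ((rAct g f : rN N K) : holSub) = holComp (isGoodMap_smul g) f := rfl

variable (N K) in
/-- `rN` inside `Mer`. -/
def rMer : rN N K →+* Mer := toMer.comp (rN N K).subtype

theorem rMer_injective : Function.Injective (rMer N K) :=
  toMer_injective.comp Subtype.val_injective

theorem merSL_rMer (g : SL(2, ℤ)) (f : rN N K) : merSL g (rMer N K f) = rMer N K (rAct g f) :=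
  merComp_toMer _ _

variable (N K) in
/-- The field of functions of level `N` over `K`. -/
def flN : Subfield Mer where
  carrier := {x | ∃ a b : rN N K, b ≠ 0 ∧ x * rMer N K b = rMer N K a}
  one_mem' := ⟨1, 1, fun h => by simpa using congrArg rSer h, by simp⟩
  zero_mem' := ⟨0, 1, fun h => by simpa using congrArg rSer h, by simp⟩
  add_mem' := by
    rintro x y ⟨a, b, hb, h⟩ ⟨c, d, hd, h'⟩
    refine ⟨a * d + c * b, b * d, mul_ne_zero hb hd, ?_⟩
    rw [map_mul, map_add, map_mul, map_mul, ← h, ← h']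
    ring
  mul_mem' := by
    rintro x y ⟨a, b, hb, h⟩ ⟨c, d, hd, h'⟩
    refine ⟨a * c, b * d, mul_ne_zero hb hd, ?_⟩
    rw [map_mul, map_mul, ← h, ← h']
    ring
  neg_mem' := by
    rintro x ⟨a, b, hb, h⟩
    exact ⟨-a, b, hb, by rw [map_neg, ← h, neg_mul]⟩
  inv_mem' := by
    rintro x ⟨a, b, hb, h⟩
    rcases eq_or_ne x 0 with rfl | hx
    · exact ⟨0, 1, fun h => by simpa using congrArg rSer h, by simp⟩
    refine ⟨b, a, fun h0 => ?_, ?_⟩
    · rw [h0, map_zero, mul_eq_zero] at h
      exact h.elim hx ((map_ne_zero_iff _ rMer_injective).2 hb)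
    · rw [← h, inv_mul_cancel_left₀ hx]

theorem rMer_mem (a : rN N K) : rMer N K a ∈ flN N K :=
  ⟨a, 1, fun h => by simpa using congrArg rSer h, by simp⟩

theorem exists_fraction (x : flN N K) :
    ∃ a b : rN N K, b ≠ 0 ∧ (x : Mer) * rMer N K b = rMer N K a := x.2

/-- The numerator and denominator do not matter for the series. -/
theorem rSer_cross {x : Mer} {a b c d : rN N K} (h : x * rMer N K b = rMer N K a)
    (h' : x * rMer N K d = rMer N K c) : rSer a * rSer d = rSer c * rSer b := by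
  rw [← map_mul, ← map_mul]
  refine congrArg rSer (rMer_injective ?_)
  rw [map_mul, map_mul, ← h, ← h']
  ring

/-- The expansion at infinity on `flN`. -/
def serFun (x : flN N K) : LaurentSeries K :=
  rSer (exists_fraction x).choose / rSer (exists_fraction x).choose_spec.choose

theorem serFun_eq {x : flN N K} {a b : rN N K} (hb : b ≠ 0)
    (h : (x : Mer) * rMer N K b = rMer N K a) : serFun x = rSer a / rSer b := by
  obtain ⟨hd, h'⟩ := (exists_fraction x).choose_spec.choose_spec
  rw [serFun, div_eq_div_iff ((map_ne_zero_iff _ rSer_injective).2 hd)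
    ((map_ne_zero_iff _ rSer_injective).2 hb)]
  exact rSer_cross h' h

theorem serFun_rMer (a : rN N K) : serFun ⟨rMer N K a, rMer_mem a⟩ = rSer a := by
  rw [serFun_eq (a := a) (b := 1) (fun h => by simpa using congrArg rSer h) (by simp), map_one,
    div_one]

/-- The expansion at infinity as a field homomorphism. -/
def ser : flN N K →+* LaurentSeries K where
  toFun := serFun
  map_one' := by
    rw [show (1 : flN N K) = ⟨rMer N K 1, rMer_mem 1⟩ from Subtype.ext (map_one (rMer N K)).symm,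
      serFun_rMer, map_one]
  map_zero' := by
    rw [show (0 : flN N K) = ⟨rMer N K 0, rMer_mem 0⟩ from Subtype.ext (map_zero (rMer N K)).symm,
      serFun_rMer, map_zero]
  map_add' x y := by
    obtain ⟨a, b, hb, h⟩ := exists_fraction x
    obtain ⟨c, d, hd, h'⟩ := exists_fraction y
    have hb' := (map_ne_zero_iff _ rSer_injective).2 hb
    have hd' := (map_ne_zero_iff _ rSer_injective).2 hd
    rw [serFun_eq hb h, serFun_eq hd h', div_add_div _ _ hb' hd',
      serFun_eq (a := a * d + b * c) (mul_ne_zero hb hd) (by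
        show ((x : Mer) + (y : Mer)) * _ = _
        rw [map_mul, map_add, map_mul, map_mul, ← h, ← h']; ring)]
    simp only [map_add, map_mul]
  map_mul' x y := by
    obtain ⟨a, b, hb, h⟩ := exists_fraction x
    obtain ⟨c, d, hd, h'⟩ := exists_fraction y
    rw [serFun_eq hb h, serFun_eq hd h', div_mul_div_comm,
      serFun_eq (a := a * c) (mul_ne_zero hb hd) (by
        show ((x : Mer) * (y : Mer)) * _ = _
        rw [map_mul, map_mul, ← h, ← h']; ring)]
    simp only [map_mul]

theorem ser_rMer (a : rN N K) : ser ⟨rMer N K a, rMer_mem a⟩ = rSer a := by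
  show serFun _ = _
  exact serFun_rMer a

theorem ser_injective : Function.Injective (ser (N := N) (K := K)) := (ser (N := N) (K := K)).injective

theorem merSL_mem (g : SL(2, ℤ)) {x : Mer} (hx : x ∈ flN N K) : merSL g x ∈ flN N K := by
  obtain ⟨a, b, hb, h⟩ := hx
  refine ⟨rAct g a, rAct g b, fun h0 => hb ?_, ?_⟩
  · apply rMer_injective
    apply merSL_injective g
    rw [merSL_rMer, h0, map_zero, map_zero]
  · rw [← merSL_rMer, ← merSL_rMer, ← map_mul, h]

theorem merSL_eq_self {γ : SL(2, ℤ)} (hγ : γ ∈ Gamma N) {x : Mer} (hx : x ∈ flN N K) :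
    merSL γ x = x := by
  obtain ⟨a, b, hb, h⟩ := hx
  have key : ∀ c : rN N K, merSL γ (rMer N K c) = rMer N K c := fun c => by
    rw [merSL_rMer]
    exact congrArg _ (Subtype.ext (Subtype.ext (funext fun z => rN_invariant c hγ z)))
  have h2 := congrArg (merSL γ) h
  rw [map_mul, key, key, ← h] at h2
  exact mul_right_cancel₀ ((map_ne_zero_iff _ rMer_injective).2 hb) h2

/-- Translation on `flN`. -/
def flAct (g : SL(2, ℤ)) : flN N K →+* flN N K :=
  RingHom.codRestrict ((merSL g).comp (flN N K).subtype) (flN N K) fun x => merSL_mem g x.2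

theorem coe_flAct (g : SL(2, ℤ)) (x : flN N K) : ((flAct g x : flN N K) : Mer) = merSL g x := rfl

theorem flAct_mul (g g' : SL(2, ℤ)) (x : flN N K) : flAct (g * g') x = flAct g' (flAct g x) :=
  Subtype.ext (merSL_mul g g' _)

theorem flAct_one (x : flN N K) : flAct 1 x = x := Subtype.ext (merSL_one _)

/-- Constants. -/
def rC : K →+* rN N K :=
  RingHom.codRestrict ((RingHom.codRestrict (Pi.constRingHom ℍ ℂ) holSub
    fun _ => mdifferentiable_const).comp K.subtype) (rN N K) fun c =>
    mem_rN.2 ⟨fun _ _ _ => rfl, fun _ => ⟨HahnSeries.C c, by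
      unfold HasKExp
      rw [HahnSeries.C_apply, coeffMap_single, ← HahnSeries.C_apply]
      exact hasExp_C (c : ℂ)⟩⟩

theorem rMer_rC (c : K) : rMer N K (rC c) = merC (c : ℂ) := rfl

theorem rSer_rC (c : K) : rSer (rC (N := N) c) = HahnSeries.C c := rSer_eq (by
  unfold HasKExp
  rw [HahnSeries.C_apply, coeffMap_single, ← HahnSeries.C_apply]
  exact hasExp_C (c : ℂ))

theorem merC_mem (c : K) : merC (c : ℂ) ∈ flN N K := rMer_mem (rC c)

end FA.Carayol
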