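import Fermat.Agent.Carayol.Field.Ratio

/-!
# The invariant `λ` of level two
-/

set_option autoImplicit false
set_option linter.unusedSectionVars false

noncomputable section

namespace FA.Carayol

open UpperHalfPlane hiding I
open CongruenceSubgroup HahnSeries ModularCurve FA.Level FA.ModField FA.Mazur.Wp
open scoped MatrixGroups

/-- The point `τ / 2`. -/
def tA (h : ℕ) : ℤ × ℤ := (h, 0)

/-- The point `1 / 2`. -/
def tB (h : ℕ) : ℤ × ℤ := (0, h)

/-- The point `(1 + τ) / 2`. -/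
def tC (h : ℕ) : ℤ × ℤ := (h, h)

/-- `λ` as a function. -/
def lamFun (N h : ℕ) (τ : ℍ) : ℂ := ratFun N (tC h) (tA h) (tB h) τ

variable {N h : ℕ} (hN : N = 2 * h) [NeZero N]
include hN

theorem half_pos : 0 < h := Nat.pos_of_ne_zero fun h0 => NeZero.ne N (by rw [hN, h0, mul_zero])

theorem not_dvd_half : ¬ (N : ℤ) ∣ (h : ℤ) := by
  rw [Int.natCast_dvd_natCast]
  exact fun hd => absurd (Nat.le_of_dvd (half_pos hN) hd) (by have := half_pos hN; omega)

theorem isVec_tA : IsVec N (tA h) := fun hd => not_dvd_half hN hd.1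
theorem isVec_tB : IsVec N (tB h) := fun hd => not_dvd_half hN hd.2
theorem isVec_tC : IsVec N (tC h) := fun hd => not_dvd_half hN hd.1

theorem apart_ab : Apart N (tA h) (tB h) :=
  ⟨fun hd => not_dvd_half hN (by simpa [tA, tB] using hd.1),
    fun hd => not_dvd_half hN (by simpa [tA, tB] using hd.1)⟩

theorem apart_cb : Apart N (tC h) (tB h) :=
  ⟨fun hd => not_dvd_half hN (by simpa [tC, tB] using hd.1),
    fun hd => not_dvd_half hN (by simpa [tC, tB] using hd.1)⟩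

theorem apart_ca : Apart N (tC h) (tA h) :=
  ⟨fun hd => not_dvd_half hN (by simpa [tC, tA] using hd.2),
    fun hd => not_dvd_half hN (by simpa [tC, tA] using hd.2)⟩

/-- Points of order two only depend on parities. -/
theorem xVal_two (a b a' b' : ℤ) (ha : 2 ∣ a - a') (hb : 2 ∣ b - b') (τ : ℍ) :
    xVal N (h * a) (h * b) τ = xVal N (h * a') (h * b') τ := by
  obtain ⟨k, hk⟩ := ha
  obtain ⟨l, hl⟩ := hb
  have e : ∀ x x' m : ℤ, x - x' = 2 * m → (h : ℤ) * x = h * x' + N * m := fun x x' m hm => by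
    rw [show x = x' + 2 * m by omega, hN]; push_cast; ring
  rw [e a a' k hk, e b b' l hl, xVal_congr]

variable (K : Subfield ℂ) (hζ : ∀ b : ℤ, eta N b ∈ K)

/-- `λ`. -/
def lam : rN N K := ratHol K hζ (isVec_tC hN) (isVec_tA hN) (isVec_tB hN) (apart_ab hN)

theorem coe_lam (τ : ℍ) : ((lam hN K hζ : holSub) : ℍ → ℂ) τ = lamFun N h τ := rfl

theorem lamFun_ne_zero (τ : ℍ) : lamFun N h τ ≠ 0 :=
  div_ne_zero (sub_ne_zero.2 (xVal_ne (isVec_tC hN) (isVec_tB hN) (apart_cb hN) τ))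
    (sub_ne_zero.2 (xVal_ne (isVec_tA hN) (isVec_tB hN) (apart_ab hN) τ))

theorem one_sub_lamFun (τ : ℍ) : 1 - lamFun N h τ = ratFun N (tA h) (tA h) (tB h) τ -
    ratFun N (tC h) (tA h) (tB h) τ := by
  rw [lamFun, ratFun, ratFun, div_self (sub_ne_zero.2
    (xVal_ne (isVec_tA hN) (isVec_tB hN) (apart_ab hN) τ))]

theorem lamFun_ne_one (τ : ℍ) : lamFun N h τ ≠ 1 := by
  intro h1
  rw [lamFun, ratFun, div_eq_one_iff_eq (sub_ne_zero.2
    (xVal_ne (isVec_tA hN) (isVec_tB hN) (apart_ab hN) τ)), sub_left_inj] at h1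
  exact xVal_ne (isVec_tC hN) (isVec_tA hN) (apart_ca hN) τ h1

theorem lamFun_smul (g : SL(2, ℤ)) (τ : ℍ) : lamFun N h (g • τ) =
    (xVal N (h * (g 0 0 + g 1 0)) (h * (g 0 1 + g 1 1)) τ -
        xVal N (h * g 1 0) (h * g 1 1) τ) /
      (xVal N (h * g 0 0) (h * g 0 1) τ - xVal N (h * g 1 0) (h * g 1 1) τ) := by
  rw [lamFun, ratFun_smul]
  simp only [ratFun, vmul, tA, tB, tC, zero_mul, zero_add, add_zero, mul_add]

theorem lamFun_parity (g : SL(2, ℤ)) {a b c d : ℤ} (ha : 2 ∣ g 0 0 - a) (hb : 2 ∣ g 0 1 - b)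
    (hc : 2 ∣ g 1 0 - c) (hd : 2 ∣ g 1 1 - d) (τ : ℍ) : lamFun N h (g • τ) =
    (xVal N (h * (a + c)) (h * (b + d)) τ - xVal N (h * c) (h * d) τ) /
      (xVal N (h * a) (h * b) τ - xVal N (h * c) (h * d) τ) := by
  rw [lamFun_smul hN, xVal_two hN (g 0 0 + g 1 0) (g 0 1 + g 1 1) (a + c) (b + d) (by omega) (by omega) τ,
    xVal_two hN (g 0 0) (g 0 1) a b ha hb τ, xVal_two hN (g 1 0) (g 1 1) c d hc hd τ]

theorem lamFun_gamma_two {γ : SL(2, ℤ)} (hγ : γ ∈ Gamma 2) (τ : ℍ) :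
    lamFun N h (γ • τ) = lamFun N h τ := by
  rw [Gamma_mem] at hγ
  have d1 : (2 : ℤ) ∣ γ 0 0 - 1 := by
    rw [show (2 : ℤ) = ((2 : ℕ) : ℤ) from rfl, ← ZMod.intCast_zmod_eq_zero_iff_dvd]; simp [hγ.1]
  have d4 : (2 : ℤ) ∣ γ 1 1 - 1 := by
    rw [show (2 : ℤ) = ((2 : ℕ) : ℤ) from rfl, ← ZMod.intCast_zmod_eq_zero_iff_dvd]
    simp [hγ.2.2.2]
  have d2 : (2 : ℤ) ∣ γ 0 1 - 0 := by
    rw [sub_zero]; exact (ZMod.intCast_zmod_eq_zero_iff_dvd _ 2).mp hγ.2.1
  have d3 : (2 : ℤ) ∣ γ 1 0 - 0 := by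
    rw [sub_zero]; exact (ZMod.intCast_zmod_eq_zero_iff_dvd _ 2).mp hγ.2.2.1
  rw [lamFun_parity hN γ d1 d2 d3 d4]
  simp [lamFun, ratFun, tA, tB, tC]

theorem lamFun_S (τ : ℍ) : lamFun N h (ModularGroup.S • τ) = 1 - lamFun N h τ := by
  rw [lamFun_parity hN ModularGroup.S (a := 0) (b := 1) (c := 1) (d := 0) (by simp [ModularGroup.S])
    (by simp [ModularGroup.S]) (by simp [ModularGroup.S]) (by simp [ModularGroup.S])]
  have h1 := sub_ne_zero.2 (xVal_ne (isVec_tA hN) (isVec_tB hN) (apart_ab hN) τ)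
  have h2 := sub_ne_zero.2 (xVal_ne (isVec_tA hN) (isVec_tB hN) (apart_ab hN) τ).symm
  simp only [lamFun, ratFun, tA, tB, tC, mul_one, mul_zero, zero_add, add_zero] at h1 h2 ⊢
  field_simp
  ring

theorem lamFun_T (τ : ℍ) : lamFun N h (ModularGroup.T • τ) = (lamFun N h τ)⁻¹ := by
  rw [lamFun_parity hN ModularGroup.T (a := 1) (b := 1) (c := 0) (d := 1) (by simp [ModularGroup.T])
    (by simp [ModularGroup.T]) (by simp [ModularGroup.T]) (by simp [ModularGroup.T]),
    show (1 : ℤ) + 1 = 2 from rfl, xVal_two hN (1 + 0) 2 1 0 (by norm_num) (by norm_num)]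
  simp [lamFun, ratFun, tA, tB, tC]

theorem lamFun_TS (τ : ℍ) :
    lamFun N h ((ModularGroup.T * ModularGroup.S) • τ) = (1 - lamFun N h τ)⁻¹ := by
  rw [mul_smul, lamFun_T hN, lamFun_S hN]

theorem rAct_lam_gamma_two {γ : SL(2, ℤ)} (hγ : γ ∈ Gamma 2) :
    rAct γ (lam hN K hζ) = lam hN K hζ :=
  Subtype.ext (Subtype.ext (funext fun τ => lamFun_gamma_two hN hγ τ))

theorem xCoeff_half {M : ℕ} (hM : M ≤ h) (η : K) :
    xCoeff N (h : ℤ) η M = if M = 0 then 1 / 12 else if M = h then η + η⁻¹ else 0 := by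
  have hh := half_pos hN
  cases M with
  | zero => simp [xCoeff, if_neg (not_dvd_half hN)]
  | succ M =>
    rw [if_neg (Nat.succ_ne_zero M), xCoeff]
    have key : ∀ x ∈ Nat.divisorsAntidiagonal (M + 1), (x.2 ≠ h ∨ x.1 ≠ 1) →
        x.2 < h := fun x hx hne => by
      obtain ⟨hx1, -⟩ := Nat.mem_divisorsAntidiagonal.1 hx
      have h1 : 1 ≤ x.1 := Nat.pos_of_ne_zero fun h0 => by simp [h0] at hx1
      have h2 : x.2 ≤ x.1 * x.2 := Nat.le_mul_of_pos_left _ h1
      rcases Nat.lt_or_ge x.2 h with h3 | h3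
      · exact h3
      exfalso
      have h4 : x.2 = h := by omega
      rcases hne with h5 | h5
      · exact h5 h4
      · have h6 : 2 * x.2 ≤ x.1 * x.2 := Nat.mul_le_mul_right _ (by omega)
        omega
    have hsmall : ∀ x ∈ Nat.divisorsAntidiagonal (M + 1), x.2 < h →
        ((x.1 : K) * ((if (N : ℤ) ∣ (x.2 : ℤ) - h then η ^ x.1 else 0) +
          (if (N : ℤ) ∣ (x.2 : ℤ) + h then η⁻¹ ^ x.1 else 0) -
          (if (N : ℤ) ∣ (x.2 : ℤ) then 2 else 0))) = 0 := fun x hx hlt => by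
      obtain ⟨hx1, -⟩ := Nat.mem_divisorsAntidiagonal.1 hx
      have h2 : 0 < x.2 := Nat.pos_of_ne_zero fun h0 => by simp [h0] at hx1
      have n1 : ¬ (N : ℤ) ∣ (x.2 : ℤ) - h := fun hd =>
        absurd (Int.le_of_dvd (by omega) (dvd_neg.2 hd)) (by omega)
      have n2 : ¬ (N : ℤ) ∣ (x.2 : ℤ) + h := fun hd =>
        absurd (Int.le_of_dvd (by omega) hd) (by omega)
      have n3 : ¬ (N : ℤ) ∣ (x.2 : ℤ) := fun hd =>
        absurd (Int.le_of_dvd (by omega) hd) (by omega)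
      rw [if_neg n1, if_neg n2, if_neg n3]
      simp
    split_ifs with heq
    · rw [Finset.sum_eq_single ((1 : ℕ), h)]
      · rw [if_pos ⟨0, by ring⟩, if_pos ⟨1, by rw [hN]; push_cast; ring⟩,
          if_neg (not_dvd_half hN)]
        simp
      · intro x hx hne
        refine hsmall x hx (key x hx ?_)
        by_contra hc
        push Not at hc
        exact hne (Prod.ext hc.2 hc.1)
      · exact fun hn => absurd (Nat.mem_divisorsAntidiagonal.2 ⟨by simp [heq], by omega⟩) hn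
    · refine Finset.sum_eq_zero fun x hx => hsmall x hx ?_
      obtain ⟨hx1, -⟩ := Nat.mem_divisorsAntidiagonal.1 hx
      have h1 : 1 ≤ x.1 := Nat.pos_of_ne_zero fun h0 => by simp [h0] at hx1
      have h2 : x.2 ≤ x.1 * x.2 := Nat.le_mul_of_pos_left _ h1
      omega

theorem eta_half : eta N (h : ℤ) = -1 := by
  rw [eta, show tpi * ((h : ℤ) : ℂ) / (N : ℂ) = Real.pi * Complex.I by
    rw [hN, tpi]
    have : (h : ℂ) ≠ 0 := by exact_mod_cast (half_pos hN).ne'
    push_cast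
    field_simp]
  exact Complex.exp_pi_mul_I

theorem eta_zero' : eta N 0 = 1 := by simp [eta]

/-- `1 - λ` vanishes to order exactly `h` at infinity, with leading coefficient `16`. -/
theorem rSer_one_sub_lam :
    (∀ i : ℤ, i < h → (rSer (1 - lam hN K hζ)).coeff i = 0) ∧
      (rSer (1 - lam hN K hζ)).coeff h = 16 := by
  have hh := half_pos hN
  have e1 : (⟨eta N (h : ℤ), hζ h⟩ : K) = -1 := Subtype.ext (by simp [eta_half hN])
  have e0 : (⟨eta N 0, hζ 0⟩ : K) = 1 := Subtype.ext (by simp [eta_zero' hN])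
  set A := xK K hζ (tA h) with hA
  set B := xK K hζ (tB h) with hB
  set C := xK K hζ (tC h) with hC
  have hsA : ∀ M : ℕ, M ≤ h → A.coeff (M : ℤ) =
      if M = 0 then 1 / 12 else if M = h then 2 else 0 := fun M hM => by
    rw [hA, xK, HahnSeries.ofPowerSeries_apply_coeff, xSer, PowerSeries.coeff_mk]
    simp only [tA]
    rw [e0, xCoeff_half hN K hM]
    norm_num
  have hsC : ∀ M : ℕ, M ≤ h → C.coeff (M : ℤ) =
      if M = 0 then 1 / 12 else if M = h then -2 else 0 := fun M hM => by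
    rw [hC, xK, HahnSeries.ofPowerSeries_apply_coeff, xSer, PowerSeries.coeff_mk]
    simp only [tC]
    rw [e1, xCoeff_half hN K hM]
    norm_num
  have hneg : ∀ (v : ℤ × ℤ) (i : ℤ), i < 0 → (xK K hζ v).coeff i = 0 := fun v i hi =>
    ModularCurve.ofPowerSeries_coeff_of_neg _ hi
  have hB0 : B.coeff 0 = -(1 / 6) := by
    rw [hB, xK, show (0 : ℤ) = ((0 : ℕ) : ℤ) from rfl, HahnSeries.ofPowerSeries_apply_coeff, xSer,
      PowerSeries.coeff_mk]
    simp only [tB, xCoeff, dvd_zero, if_true]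
    rw [e1]
    norm_num
  have hd : ∀ i : ℤ, i ≤ h → (A - C).coeff i = if i = h then 4 else 0 := fun i hi => by
    rw [HahnSeries.coeff_sub]
    rcases lt_or_ge i 0 with h0 | h0
    · rw [hA, hC, hneg _ i h0, hneg _ i h0, if_neg (by omega)]; simp
    · obtain ⟨M, rfl⟩ := Int.eq_ofNat_of_zero_le h0
      rw [hsA M (by exact_mod_cast hi), hsC M (by exact_mod_cast hi)]
      rcases eq_or_ne M 0 with rfl | hM0
      · rw [if_neg (show ((0 : ℕ) : ℤ) ≠ h by omega)]; simp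
      · rw [if_neg hM0, if_neg hM0]
        rcases eq_or_ne M h with rfl | hMh
        · simp; norm_num
        · rw [if_neg hMh, if_neg hMh, if_neg (by omega)]; simp
  have hden : (A - B).coeff 0 = 1 / 4 := by
    rw [HahnSeries.coeff_sub, hB0, show (0 : ℤ) = ((0 : ℕ) : ℤ) from rfl, hsA 0 (Nat.zero_le _)]
    norm_num
  have hden0 : ∀ i : ℤ, i < 0 → (A - B).coeff i = 0 := fun i hi => by
    rw [HahnSeries.coeff_sub, hA, hB, hneg _ i hi, hneg _ i hi, sub_zero]
  have hne : A - B ≠ 0 := fun h0 => by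
    rw [h0, HahnSeries.coeff_zero] at hden
    norm_num at hden
  have hS : rSer (1 - lam hN K hζ) * (A - B) = A - C := by
    rw [map_sub, map_one, lam, rSer_ratHol, sub_mul, one_mul, mul_assoc,
      inv_mul_cancel₀ hne, mul_one]
    ring
  set S := rSer (1 - lam hN K hζ)
  have hS0 : S ≠ 0 := fun h0 => by
    have := hd h le_rfl
    rw [← hS, h0, zero_mul, HahnSeries.coeff_zero, if_pos rfl] at this
    norm_num at this
  have ho : (A - B).order = 0 :=
    le_antisymm (HahnSeries.order_le_of_coeff_ne_zero (by rw [hden]; norm_num))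
      (le_of_not_gt fun hlt => HahnSeries.coeff_order_eq_zero.not.2 hne (hden0 _ hlt))
  have hACne : A - C ≠ 0 := by rw [← hS]; exact mul_ne_zero hS0 hne
  have hoAC : (A - C).order = h :=
    le_antisymm (HahnSeries.order_le_of_coeff_ne_zero (by rw [hd h le_rfl, if_pos rfl]; norm_num))
      (le_of_not_gt fun hlt => HahnSeries.coeff_order_eq_zero.not.2 hACne (by
        rw [hd _ hlt.le, if_neg hlt.ne]))
  have hoS : S.order = h := by
    have := HahnSeries.order_mul hS0 hne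
    rw [hS, hoAC, ho, add_zero] at this
    exact this.symm
  refine ⟨fun i hi => HahnSeries.coeff_eq_zero_of_lt_order (by rw [hoS]; exact hi), ?_⟩
  have hl : (A - C).leadingCoeff = S.leadingCoeff * (A - B).leadingCoeff := by
    rw [← hS, HahnSeries.leadingCoeff_mul]
  rw [HahnSeries.leadingCoeff_eq, HahnSeries.leadingCoeff_eq, HahnSeries.leadingCoeff_eq,
    hoAC, ho, hoS, hden, hd h le_rfl, if_pos rfl] at hl
  linear_combination (-4 : K) * hl

end FA.Carayol
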