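import Fermat.Agent.JTorsion.CuspKill
import Fermat.Agent.Mazur.Moduli.LineFun

/-!
# Expansions at infinity: holomorphy, periodicity, inverses
-/

set_option autoImplicit false
set_option linter.unusedSectionVars false

noncomputable section

namespace FA.Carayol

open UpperHalfPlane hiding I
open Complex HahnSeries Filter FA.ModField FA.JTorsion
open scoped MatrixGroups Topology Manifold

variable {N : ℕ} [NeZero N]

theorem mdiff_qp : MDiff (qp N) := by
  rw [UpperHalfPlane.mdifferentiable_iff]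
  intro w hw
  refine (((qParam_hasDerivAt N w).differentiableAt).congr_of_eventuallyEq
    ?_).differentiableWithinAt
  filter_upwards [isOpen_upperHalfPlaneSet.mem_nhds hw] with x hx
  simp [qp, Function.comp_apply, ofComplex_apply_of_im_pos hx]

theorem qp_T_pow (z : ℍ) : qp N (ModularGroup.T ^ (N : ℤ) • z) = qp N z := by
  have hN : (N : ℂ) ≠ 0 := by exact_mod_cast NeZero.ne N
  rw [qp_eq, qp_eq, ModularGroup.coe_T_zpow_smul_eq, show (2 * Real.pi * I * ((z : ℂ) + ((N : ℤ) : ℂ)) / N)
    = 2 * Real.pi * I * (z : ℂ) / N + (1 : ℤ) * (2 * Real.pi * I) by push_cast; field_simp]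
  rw [Complex.exp_add, Complex.exp_int_mul_two_pi_mul_I, mul_one]

/-- A function with an expansion is periodic. -/
theorem exp_periodic {f : ℍ → ℂ} {S : LaurentSeries ℂ} (h : HasExp (qp N) f S) (z : ℍ) :
    f (ModularGroup.T ^ (N : ℤ) • z) = f z := by
  have h1 := h (ModularGroup.T ^ (N : ℤ) • z)
  rw [qp_T_pow] at h1
  exact h1.unique (h z)

/-- A holomorphic periodic function which is bounded at infinity has an expansion. -/
theorem exists_exp_of_bounded {f : ℍ → ℂ} (hd : MDiff f)
    (hper : ∀ z, f (ModularGroup.T ^ (N : ℤ) • z) = f z) (hb : IsBoundedAtImInfty f) :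
    ∃ P : PowerSeries ℂ, HasExp (qp N) f (ofPowerSeries ℤ ℂ P) := by
  have hp : Function.Periodic (f ∘ ofComplex) (N : ℝ) := by
    intro w
    rcases le_or_gt w.im 0 with hw | hw
    · have hw' : (w + (N : ℝ)).im ≤ 0 := by simpa using hw
      simp only [Function.comp_apply, ofComplex_apply_eq_of_im_nonpos hw' hw]
    · have hw' : 0 < (w + (N : ℝ)).im := by simpa using hw
      simp only [Function.comp_apply, ofComplex_apply_of_im_pos hw, ofComplex_apply_of_im_pos hw']
      rw [← hper ⟨w, hw⟩]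
      congr 1
      apply UpperHalfPlane.ext
      rw [ModularGroup.coe_T_zpow_smul_eq]
      simp
  refine ⟨UpperHalfPlane.qExpansion N f, hasExp_ofPowerSeries fun z => ?_⟩
  have := UpperHalfPlane.hasSum_qExpansion (h := (N : ℝ))
    (by exact_mod_cast Nat.pos_of_ne_zero (NeZero.ne N)) hp hd hb z
  simpa [qp, smul_eq_mul] using this

/-- The shifted function. -/
theorem exp_shift {f : ℍ → ℂ} {S : LaurentSeries ℂ} (h : HasExp (qp N) f S) (k : ℤ) :
    HasExp (qp N) (fun z => f z * qp N z ^ k) (S * single k 1) :=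
  (h.mul (qp_ne_zero N) (hasExp_single k 1)).congr (funext fun z => by simp)

theorem ordGE_shift (S : LaurentSeries ℂ) : OrdGE 0 (S * single (-S.order) 1) := by
  intro i hi
  rw [show i = (i + S.order) + -S.order by ring, coeff_mul_single_add, mul_one]
  exact coeff_eq_zero_of_lt_order (by omega)

/-- A function with an expansion is holomorphic. -/
theorem mdiff_of_exp {f : ℍ → ℂ} {S : LaurentSeries ℂ} (h : HasExp (qp N) f S) : MDiff f := by
  have h1 := exp_shift h (-S.order)
  obtain ⟨P, hP⟩ : ∃ P : PowerSeries ℂ, S * single (-S.order) 1 = ofPowerSeries ℤ ℂ P := by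
    refine ⟨PowerSeries.mk fun n => (S * single (-S.order) 1).coeff n, HahnSeries.ext (funext fun i => ?_)⟩
    rcases lt_or_ge i 0 with hi | hi
    · rw [ModularCurve.ofPowerSeries_coeff_of_neg _ hi, ordGE_shift S i hi]
    · obtain ⟨n, rfl⟩ := Int.eq_ofNat_of_zero_le hi
      rw [ofPowerSeries_coeff_natCast, PowerSeries.coeff_mk]
  have h2 := FA.Mazur.Moduli.mdiff_of_hasExp (hP ▸ h1)
  have h3 : MDiff fun z => qp N z ^ S.order := by
    rcases Int.eq_nat_or_neg S.order with ⟨m, hm | hm⟩ <;> rw [hm]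
    · simp only [zpow_natCast]
      exact mdiff_qp.pow m
    · simp only [zpow_neg, zpow_natCast]
      exact (mdiff_qp.pow m).inv fun z => pow_ne_zero _ (qp_ne_zero N z)
  have h4 : f = fun z => (f z * qp N z ^ (-S.order)) * qp N z ^ S.order := funext fun z => by
    rw [mul_assoc, ← zpow_add₀ (qp_ne_zero N z), neg_add_cancel, zpow_zero, mul_one]
  rw [h4]
  exact h2.mul h3

/-- **The inverse of a nowhere vanishing function with an expansion has one.** -/
theorem exp_inv {f : ℍ → ℂ} {S : LaurentSeries ℂ} (h : HasExp (qp N) f S) (hf : ∀ z, f z ≠ 0) :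
    HasExp (qp N) (fun z => (f z)⁻¹) S⁻¹ := by
  have hS : S ≠ 0 := fun h0 => hf UpperHalfPlane.I ((h UpperHalfPlane.I).unique (by
    rw [h0]; simp [hasSum_zero]))
  set o := S.order
  set g : ℍ → ℂ := fun z => (f z * qp N z ^ (-o))⁻¹
  have hg0 : ∀ z, f z * qp N z ^ (-o) ≠ 0 := fun z =>
    mul_ne_zero (hf z) (zpow_ne_zero _ (qp_ne_zero N z))
  have h1 := exp_shift h (-o)
  have hc : (S * single (-o) (1 : ℂ)).coeff 0 ≠ 0 := by
    rw [show (0 : ℤ) = o + -o by ring, coeff_mul_single_add, mul_one]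
    exact coeff_order_eq_zero.not.2 hS
  have hb : IsBoundedAtImInfty g :=
    ((tendsto_coeff_zero h1 (ordGE_shift S)).inv₀ hc).isBigO_one ℝ
  obtain ⟨P, hP⟩ := exists_exp_of_bounded (N := N) (f := g) ((mdiff_of_exp h1).inv hg0)
    (fun z => by simp only [g]; rw [exp_periodic h z, qp_T_pow]) hb
  have h2 : HasExp (qp N) (fun z => (f z)⁻¹) (ofPowerSeries ℤ ℂ P * single (-o) 1) :=
    (exp_shift hP (-o)).congr (funext fun z => by
      simp only [g, mul_inv]
      rw [mul_assoc, inv_mul_cancel₀ (zpow_ne_zero _ (qp_ne_zero N z)), mul_one])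
  have h3 : S * (ofPowerSeries ℤ ℂ P * single (-o) 1) = 1 := by
    refine HasExp.unique (covers_qp N) ?_ hasExp_one
    exact (h.mul (qp_ne_zero N) h2).congr (funext fun z => by
      simp only [Pi.mul_apply, Pi.one_apply, mul_inv_cancel₀ (hf z)])
  rw [inv_eq_of_mul_eq_one_right h3]
  exact h2

end FA.Carayol
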