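import Fermat.Agent.Carayol.Field.Functions
import Fermat.Agent.Carayol.Field.Series
import Fermat.Agent.Mazur.Moduli.WeierAdd
import Fermat.Agent.Mazur.Wp.Curve

/-!
# Ratios of differences of abscissae of torsion points

`(℘(v) - ℘(b)) / (℘(a) - ℘(b))` for `a, b, v ∈ (1/N ℤ²)`: a function of level `N` with
coefficients in any field containing the `N`-th roots of unity.
-/

set_option autoImplicit false
set_option linter.unusedSectionVars false

noncomputable section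

namespace FA.Carayol

open UpperHalfPlane hiding I
open CongruenceSubgroup HahnSeries ModularCurve FA.Level FA.ModField FA.Mazur.Wp
open scoped MatrixGroups

variable (N : ℕ)

/-- A nonzero vector modulo `N`. -/
def IsVec (v : ℤ × ℤ) : Prop := ¬ ((N : ℤ) ∣ v.1 ∧ (N : ℤ) ∣ v.2)

/-- Two vectors with different abscissae. -/
def Apart (v w : ℤ × ℤ) : Prop := IsVec N (v - w) ∧ IsVec N (v + w)

/-- The row vector times a matrix. -/
def vmul (v : ℤ × ℤ) (g : SL(2, ℤ)) : ℤ × ℤ :=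
  (v.1 * g 0 0 + v.2 * g 1 0, v.1 * g 0 1 + v.2 * g 1 1)

variable {N}

theorem vmul_one (v : ℤ × ℤ) : vmul v 1 = v := by simp [vmul]

theorem vmul_mul (v : ℤ × ℤ) (g h : SL(2, ℤ)) : vmul v (g * h) = vmul (vmul v g) h := by
  simp only [vmul, Matrix.SpecialLinearGroup.coe_mul, Matrix.mul_apply, Fin.sum_univ_two]
  ext <;> simp <;> ring

theorem vmul_add (v w : ℤ × ℤ) (g : SL(2, ℤ)) : vmul (v + w) g = vmul v g + vmul w g := by
  simp only [vmul, Prod.fst_add, Prod.snd_add, Prod.mk_add_mk]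
  ext <;> simp <;> ring

theorem vmul_sub (v w : ℤ × ℤ) (g : SL(2, ℤ)) : vmul (v - w) g = vmul v g - vmul w g := by
  simp only [vmul, Prod.fst_sub, Prod.snd_sub, Prod.mk_sub_mk]
  ext <;> simp <;> ring

theorem IsVec.vmul {v : ℤ × ℤ} (hv : IsVec N v) (g : SL(2, ℤ)) : IsVec N (vmul v g) := by
  intro h
  apply hv
  have e : Carayol.vmul (Carayol.vmul v g) g⁻¹ = v := by rw [← vmul_mul, mul_inv_cancel, vmul_one]
  rw [← e]
  exact ⟨dvd_add (h.1.mul_right _) (h.2.mul_right _), dvd_add (h.1.mul_right _) (h.2.mul_right _)⟩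

theorem Apart.vmul {v w : ℤ × ℤ} (h : Apart N v w) (g : SL(2, ℤ)) :
    Apart N (vmul v g) (vmul w g) :=
  ⟨by rw [← vmul_sub]; exact h.1.vmul g, by rw [← vmul_add]; exact h.2.vmul g⟩

variable [NeZero N]

theorem zPt_mem_iff (v : ℤ × ℤ) (τ : ℍ) :
    zPt N v.1 v.2 τ ∈ (latPair τ).lattice ↔ (N : ℤ) ∣ v.1 ∧ (N : ℤ) ∣ v.2 := by
  have hN : (N : ℂ) ≠ 0 := Nat.cast_ne_zero.2 (NeZero.ne N)
  rw [mem_latPair]
  constructor
  · rintro ⟨m, n, h⟩
    rw [zPt, eq_div_iff hN] at h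
    have him := congrArg Complex.im h
    simp only [Complex.mul_im, Complex.add_im, Complex.natCast_re, Complex.natCast_im,
      Complex.intCast_re, Complex.intCast_im, zero_mul, add_zero, mul_zero] at him
    have h1 : ((N : ℤ) * m : ℤ) = v.1 := by
      have h2 : ((N : ℝ) * m - v.1) * (τ : ℂ).im = 0 := by linear_combination him
      rcases mul_eq_zero.1 h2 with h3 | h3
      · exact_mod_cast sub_eq_zero.1 h3
      · exact absurd h3 τ.im_pos.ne'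
    refine ⟨⟨m, h1.symm⟩, ⟨n, ?_⟩⟩
    have h4 : ((v.1 : ℂ)) = (N : ℂ) * m := by exact_mod_cast h1.symm
    rw [h4] at h
    have h5 : ((v.2 : ℤ) : ℂ) = (((N : ℤ) * n : ℤ) : ℂ) := by push_cast; linear_combination -h
    exact_mod_cast h5
  · rintro ⟨⟨m, hm⟩, ⟨n, hn⟩⟩
    refine ⟨m, n, ?_⟩
    rw [zPt, hm, hn]
    push_cast
    field_simp

/-- **Equal abscissae come from opposite vectors.** -/
theorem xVal_ne {v w : ℤ × ℤ} (hv : IsVec N v) (hw : IsVec N w) (h : Apart N v w) (τ : ℍ) :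
    xVal N v.1 v.2 τ ≠ xVal N w.1 w.2 τ := by
  intro he
  rw [xVal, xVal, div_left_inj' (pow_ne_zero 2 tpi_ne_zero)] at he
  have hz : ∀ u : ℤ × ℤ, IsVec N u → zPt N u.1 u.2 τ ∉ (latPair τ).lattice := fun u hu h' =>
    hu ((zPt_mem_iff u τ).1 h')
  rcases FA.Mazur.Weier.eq_or_eq_neg_of_eq (latPair τ) (hz w hw) (hz v hv) he.symm with h1 | h1
  · exact hz (v - w) h.1 (by
      convert h1 using 1
      simp only [zPt, Prod.fst_sub, Prod.snd_sub]
      push_cast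
      ring)
  · exact hz (v + w) h.2 (by
      convert h1 using 1
      simp only [zPt, Prod.fst_add, Prod.snd_add]
      push_cast
      ring)

variable (N) in
/-- The ratio. -/
def ratFun (v a b : ℤ × ℤ) (τ : ℍ) : ℂ :=
  (xVal N v.1 v.2 τ - xVal N b.1 b.2 τ) / (xVal N a.1 a.2 τ - xVal N b.1 b.2 τ)

theorem ratFun_smul (v a b : ℤ × ℤ) (g : SL(2, ℤ)) (τ : ℍ) :
    ratFun N v a b (g • τ) = ratFun N (vmul v g) (vmul a g) (vmul b g) τ := by
  simp only [ratFun, xVal_smul, vmul]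
  rw [← mul_sub, ← mul_sub, mul_div_mul_left _ _ (pow_ne_zero 2 (den_ne_zero g τ))]

theorem xVal_vmul_gamma (v : ℤ × ℤ) {γ : SL(2, ℤ)} (hγ : γ ∈ Gamma N) (τ : ℍ) :
    xVal N (vmul v γ).1 (vmul v γ).2 τ = xVal N v.1 v.2 τ := by
  rw [Gamma_mem] at hγ
  obtain ⟨k₁, h₁⟩ : (N : ℤ) ∣ γ 0 0 - 1 := by
    rw [← ZMod.intCast_zmod_eq_zero_iff_dvd]; simp [hγ.1]
  obtain ⟨k₂, h₂⟩ := (ZMod.intCast_zmod_eq_zero_iff_dvd _ _).mp hγ.2.1
  obtain ⟨k₃, h₃⟩ := (ZMod.intCast_zmod_eq_zero_iff_dvd _ _).mp hγ.2.2.1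
  obtain ⟨k₄, h₄⟩ : (N : ℤ) ∣ γ 1 1 - 1 := by
    rw [← ZMod.intCast_zmod_eq_zero_iff_dvd]; simp [hγ.2.2.2]
  rw [← xVal_congr (p := N) v.1 v.2 (v.1 * k₁ + v.2 * k₃) (v.1 * k₂ + v.2 * k₄) τ]
  congr 1
  · simp only [vmul]; linear_combination v.1 * h₁ + v.2 * h₃
  · simp only [vmul]; linear_combination v.1 * h₂ + v.2 * h₄

variable (K : Subfield ℂ)

/-- The series of an abscissa over `K`. -/
def xK (hζ : ∀ b : ℤ, eta N b ∈ K) (v : ℤ × ℤ) : LaurentSeries K :=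
  ofPowerSeries ℤ K (xSer N v.1 (⟨eta N v.2, hζ v.2⟩ : K))

theorem coeffMap_xK (hζ : ∀ b : ℤ, eta N b ∈ K) (v : ℤ × ℤ) :
    coeffMap K.subtype (xK K hζ v) = ofPowerSeries ℤ ℂ (xSer N v.1 (eta N v.2)) := by
  rw [xK, coeffMap_ofPowerSeries, map_xSer]
  rfl

theorem hasKExp_ratFun (hζ : ∀ b : ℤ, eta N b ∈ K) {v a b : ℤ × ℤ} (hv : IsVec N v)
    (ha : IsVec N a) (hb : IsVec N b) (hab : Apart N a b) :
    HasKExp N K (ratFun N v a b)
      ((xK K hζ v - xK K hζ b) * (xK K hζ a - xK K hζ b)⁻¹) := by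
  have h : ∀ u, IsVec N u → HasExp (qp N) (xVal N u.1 u.2) (coeffMap K.subtype (xK K hζ u)) :=
    fun u hu => by rw [coeffMap_xK]; exact hasExp_xVal u.1 u.2 hu
  have hne : ∀ τ, (xVal N a.1 a.2 - xVal N b.1 b.2) τ ≠ 0 := fun τ =>
    sub_ne_zero.2 (xVal_ne ha hb hab τ)
  have h1 := exp_inv ((h a ha).sub (h b hb)) hne
  unfold HasKExp
  rw [map_mul, map_sub, map_inv₀, map_sub]
  exact (((h v hv).sub (h b hb)).mul (qp_ne_zero N) h1).congr (funext fun τ => by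
    simp [ratFun, div_eq_mul_inv])

/-- The ratio as a holomorphic function. -/
def ratHol (hζ : ∀ b : ℤ, eta N b ∈ K) {v a b : ℤ × ℤ} (hv : IsVec N v) (ha : IsVec N a)
    (hb : IsVec N b) (hab : Apart N a b) : rN N K :=
  ⟨⟨ratFun N v a b, mdiff_of_exp (hasKExp_ratFun K hζ hv ha hb hab)⟩, mem_rN.2
    ⟨fun γ hγ τ => by
      show ratFun N v a b (γ • τ) = ratFun N v a b τ
      rw [ratFun_smul]
      simp only [ratFun, xVal_vmul_gamma _ hγ],
    fun g => ⟨_, by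
      have h := hasKExp_ratFun K hζ (hv.vmul g) (ha.vmul g) (hb.vmul g) (hab.vmul g)
      unfold HasKExp at h ⊢
      exact h.congr (funext fun τ => (ratFun_smul v a b g τ).symm)⟩⟩⟩

theorem coe_ratHol (hζ : ∀ b : ℤ, eta N b ∈ K) {v a b : ℤ × ℤ} (hv : IsVec N v) (ha : IsVec N a)
    (hb : IsVec N b) (hab : Apart N a b) (τ : ℍ) :
    ((ratHol K hζ hv ha hb hab : holSub) : ℍ → ℂ) τ = ratFun N v a b τ := rfl

theorem rSer_ratHol (hζ : ∀ b : ℤ, eta N b ∈ K) {v a b : ℤ × ℤ} (hv : IsVec N v) (ha : IsVec N a)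
    (hb : IsVec N b) (hab : Apart N a b) :
    rSer (ratHol K hζ hv ha hb hab) = (xK K hζ v - xK K hζ b) * (xK K hζ a - xK K hζ b)⁻¹ :=
  rSer_eq (hasKExp_ratFun K hζ hv ha hb hab)

end FA.Carayol
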